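import Fermat.Agent.CFT.Interface.Cohomology

/-!
# Localisation of permutation classes at the places
-/

set_option autoImplicit false
set_option linter.style.haveILetI false

open CategoryTheory groupCohomology ExtCitation

noncomputable section

namespace Fermat.Agent.CFT

/-- Conjugation is homotopic to the identity on two-cocycles. -/
theorem conj_homotopy₂ {G : Type} [Group G] {k : Type} [CommRing k] {A : Rep.{0} k G}
    {C : G × G → A} (hC : C ∈ cocycles₂ A) (g τ τ' : G) :
    A.ρ g (C (g⁻¹ * τ * g, g⁻¹ * τ' * g)) = C (τ, τ') +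
      (A.ρ τ (C (g, g⁻¹ * τ' * g) - C (τ', g)) - (C (g, g⁻¹ * (τ * τ') * g) - C (τ * τ', g))
        + (C (g, g⁻¹ * τ * g) - C (τ, g))) := by
  have h := (mem_cocycles₂_iff C).1 hC
  have e1 := h g (g⁻¹ * τ * g) (g⁻¹ * τ' * g)
  have e2 := h τ g (g⁻¹ * τ' * g)
  have e3 := h τ τ' g
  rw [show g * (g⁻¹ * τ * g) = τ * g by group,
    show g⁻¹ * τ * g * (g⁻¹ * τ' * g) = g⁻¹ * (τ * τ') * g by group] at e1
  rw [show g * (g⁻¹ * τ' * g) = τ' * g by group] at e2
  rw [map_sub, eq_sub_of_add_eq e1.symm, eq_sub_of_add_eq e2.symm, eq_sub_of_add_eq e3.symm]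
  abel

variable {p : ℕ} [Fact p.Prime] {S : Finset Nat.Primes} {U : Subgroup GQ}

/-- A class of the permutation module vanishing at `q` vanishes at every place over `q`. -/
theorem locPlace_eq_zero_of_locS
    (C : ↥(Z2 (Levels.unr S) (MonoidHom.id GQ) (funRep (muRep p) U))) (q : Nat.Primes)
    (hloc : locS q (funRep (muRep p) U) (H2cπ _ _ _ C) = 0)
    (c' : ↥(Z2 Levels.all U.subtype (muSub p U)))
    (hc : ∀ s t : U, (c'.1 (s, t) : ZMod p) = C.1 ((s : GQ), (t : GQ)) (QuotientGroup.mk 1))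
    (x : GQ ⧸ U) : locPlace p q U x (H2cπ _ _ _ c') = 0 := by
  obtain ⟨f, hf, hfd⟩ := (Submodule.Quotient.mk_eq_zero _).1 hloc
  set g : GQ := Quotient.out x
  let h : GQ → (funRep (muRep p) U) := fun τ => C.1 (g, g⁻¹ * τ * g) - C.1 (τ, g)
  refine (Submodule.Quotient.mk_eq_zero _).2 ⟨fun τ : placeStab q U x =>
    (f (τ : primeLocalGaloisGroup q) x + h (primeLocalToGlobal q τ) x : ZMod p), ?_,
    funext fun ⟨τ, τ'⟩ => ?_⟩
  · obtain ⟨F₁, hF₁, h₁⟩ := hf
    obtain ⟨F₂, hF₂, h₂⟩ := C.2.2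
    obtain ⟨F, hF, hN, hle₁, hle₂⟩ := Levels.exists_normal₂ Levels.normalBasis_all
      (F₁ := F₁) (F₂ := F₂) hF₁ hF₂.1
    refine ⟨F, hF, fun a s hs => ?_⟩
    set a' := primeLocalToGlobal q (a : primeLocalGaloisGroup q) with ha'
    set s' := primeLocalToGlobal q (s : primeLocalGaloisGroup q) with hs'
    have hs₂ : s' ∈ F₂.fixingSubgroup := IntermediateField.fixingSubgroup_antitone hle₂ hs
    have hc₂ : g⁻¹ * s' * g ∈ F₂.fixingSubgroup :=
      IntermediateField.fixingSubgroup_antitone hle₂ (conj_mem_level (r := MonoidHom.id GQ) hN hs g)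
    have h3 : C.1 (g, g⁻¹ * (a' * s') * g) = C.1 (g, g⁻¹ * a' * g) := by
      have := h₂ g (g⁻¹ * a' * g) 1 (g⁻¹ * s' * g) (one_mem _) hc₂
      rwa [mul_one, show g⁻¹ * a' * g * (g⁻¹ * s' * g) = g⁻¹ * (a' * s') * g by group] at this
    have h4 : C.1 (a' * s', g) = C.1 (a', g) := by
      have := h₂ a' g s' 1 hs₂ (one_mem _)
      rwa [mul_one] at this
    have h5 : f ((a : primeLocalGaloisGroup q) * s) = f a :=
      h₁ _ _ (IntermediateField.fixingSubgroup_antitone hle₁ hs)
    simp only [h, Subgroup.coe_mul, map_mul, h5, ← ha', ← hs', h3, h4]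
  · have hτ : ∀ (t : placeStab q U x) (F : funRep (muRep p) U),
        (funRep (muRep p) U).ρ (primeLocalToGlobal q t) F x
          = (muRep p).ρ (primeLocalToGlobal q t) (F x) := fun t F => by
      rw [funRep_ρ_apply, inv_smul_eq_iff.2 (t.2 : primeLocalToGlobal q t • x = x).symm]
    have hg : ∀ F : funRep (muRep p) U,
        (funRep (muRep p) U).ρ g F x = (cycloChar p g : ZMod p) * F (QuotientGroup.mk 1) := fun F => by
      rw [funRep_ρ_apply, muRep_apply]
      congr 2
      conv_lhs => rw [← QuotientGroup.out_eq' x]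
      rw [MulAction.Quotient.smul_mk, QuotientGroup.eq, smul_eq_mul]
      simp [g]
    have e := congrFun (conj_homotopy₂ C.2.1 g (primeLocalToGlobal q (τ : primeLocalGaloisGroup q))
      (primeLocalToGlobal q (τ' : primeLocalGaloisGroup q))) x
    have e' := congrFun (congrFun hfd ((τ : primeLocalGaloisGroup q),
      (τ' : primeLocalGaloisGroup q))) x
    rw [hg, ← hc ⟨_, placeStab_conj_mem τ⟩ ⟨_, placeStab_conj_mem τ'⟩] at e
    rw [d₁₂_hom_apply] at e' ⊢
    simp only [Pi.add_apply, Pi.sub_apply, hτ] at e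
    change (funRep (muRep p) U).ρ (primeLocalToGlobal q (τ : primeLocalGaloisGroup q)) (f τ') x
      - f ((τ : primeLocalGaloisGroup q) * τ') x + f τ x
      = C.1 (primeLocalToGlobal q (τ : primeLocalGaloisGroup q),
        primeLocalToGlobal q (τ' : primeLocalGaloisGroup q)) x at e'
    rw [hτ] at e'
    change (muRep p).ρ (primeLocalToGlobal q (τ : primeLocalGaloisGroup q))
        (f τ' x + h (primeLocalToGlobal q τ') x)
      - (f ((τ : primeLocalGaloisGroup q) * τ') x
          + h (primeLocalToGlobal q ((τ : primeLocalGaloisGroup q) * τ')) x)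
      + (f τ x + h (primeLocalToGlobal q τ) x)
      = (cycloChar p g : ZMod p) * c'.1 (placeHom q U x τ, placeHom q U x τ')
    refine Eq.trans ?_ e.symm
    rw [← e', map_mul, map_add]
    simp only [h, Pi.sub_apply]
    abel

end Fermat.Agent.CFT
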