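import Fermat.Agent.CFT.GlobalPerm.ClassUpper
import Fermat.Agent.CFT.Sha.Counting

/-!
# The Euler characteristic bound for permutation modules and finiteness of `H²`
-/

set_option autoImplicit false
set_option linter.style.haveILetI false

open CategoryTheory groupCohomology ExtCitation Module NumberField IsDedekindDomain

noncomputable section

namespace Fermat.Agent.CFT

variable {p : ℕ} [Fact p.Prime] {S : Finset Nat.Primes} {U : Subgroup GQ}

/-- Two points over `q` give the same place. -/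
def SamePlace (q : Nat.Primes) (U : Subgroup GQ) (x y : GQ ⧸ U) : Prop :=
  ∃ τ : primeLocalGaloisGroup q, primeLocalToGlobal q τ • x = y

theorem sum_card_samePlace_le (hU : IsLevelSubgroup Levels.all (MonoidHom.id GQ) U)
    [NumberField (IntermediateField.fixedField U)] :
    ∑ q : ↥S, Nat.card (Quot (SamePlace q.1 U)) ≤
      (placesOver S (IntermediateField.fixedField U)).card := by
  haveI := hU.finite_quotient
  obtain ⟨e, -, he, hmem, -⟩ := exists_placeBridge_proof hU
  rw [← Nat.card_sigma, ← Nat.card_coe_set_eq (↑(placesOver S (IntermediateField.fixedField U)) :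
    Set (HeightOneSpectrum (𝓞 (IntermediateField.fixedField U))))|>.trans (Set.ncard_coe_finset _)]
  refine Nat.card_le_card_of_injective
    (fun z => ⟨e ⟨z.1.1, z.2.out⟩, mem_placesOver.2 ⟨z.1.1, z.1.2, hmem _ _⟩⟩) ?_
  rintro ⟨q, c⟩ ⟨q', c'⟩ h
  obtain ⟨hq, τ, hτ⟩ := (he _ _ _ _).1 (congrArg Subtype.val h)
  obtain rfl : q = q' := Subtype.ext hq
  have hc : c = c' := by
    rw [← Quot.out_eq c, ← Quot.out_eq c']
    exact Quot.sound ⟨τ, hτ⟩
  rw [hc]

/-- The trivial module `𝔽_p`. -/
abbrev oneRep (p : ℕ) [Fact p.Prime] : Rep (ZMod p) GQ := ofChar (k := ZMod p) (1 : GQ →* (ZMod p)ˣ)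

theorem oneRep_apply (g : GQ) (m : ZMod p) : (oneRep p).ρ g m = m := one_mul m

theorem isSmoothRep_oneRep : IsSmoothRep (Levels.unr S) (MonoidHom.id GQ) (oneRep p) := fun m =>
  ⟨⊥, (Levels.unr S).bot, fun s _ => oneRep_apply s m⟩

/-- The pairing of the two permutation modules. -/
def permPair (p : ℕ) [Fact p.Prime] (U : Subgroup GQ) [Fintype (GQ ⧸ U)] :
    DualPair p (cycloChar p) (funRep (oneRep p) U) (funRep (muRep p) U) where
  β := LinearMap.mk₂ (ZMod p)
    (fun (f : GQ ⧸ U → ZMod p) (f' : GQ ⧸ U → ZMod p) => ∑ x, f x * f' x)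
    (fun f f' f'' => by simp [add_mul, Finset.sum_add_distrib])
    (fun c f f' => by simp [mul_assoc, Finset.mul_sum])
    (fun f f' f'' => by simp [mul_add, Finset.sum_add_distrib])
    (fun c f f' => by simp [mul_left_comm, Finset.mul_sum])
  equivariant g f f' := by
    change ∑ x : GQ ⧸ U, (oneRep p).ρ g (f (g⁻¹ • x)) * (muRep p).ρ g (f' (g⁻¹ • x)) =
      (cycloChar p g : ZMod p) * ∑ x : GQ ⧸ U, f x * f' x
    rw [Finset.mul_sum, ← Equiv.sum_comp (MulAction.toPerm g)]
    refine Finset.sum_congr rfl fun x _ => ?_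
    rw [oneRep_apply, muRep_apply, MulAction.toPerm_apply, inv_smul_smul, mul_left_comm]
  left f h := by
    classical
    funext x
    show f x = (0 : ZMod p)
    have hx := h (Pi.single x 1)
    change ∑ y : GQ ⧸ U, f y * (Pi.single x 1 : GQ ⧸ U → ZMod p) y = 0 at hx
    simpa [Pi.single_apply] using hx
  right f h := by
    classical
    funext x
    show f x = (0 : ZMod p)
    have hx := h (Pi.single x 1)
    change ∑ y : GQ ⧸ U, (Pi.single x 1 : GQ ⧸ U → ZMod p) y * f y = 0 at hx
    simpa [Pi.single_apply] using hx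

theorem finrank_local_invariants_le (hU : IsLevelSubgroup Levels.all (MonoidHom.id GQ) U)
    (q : Nat.Primes) :
    finrank (ZMod p) (Sha.MLoc q (funRep (oneRep p) U)).ρ.invariants ≤
      Nat.card (Quot (SamePlace q U)) := by
  haveI := hU.finite_quotient
  haveI := Fintype.ofFinite (Quot (SamePlace q U))
  have hinv : ∀ (f : (Sha.MLoc q (funRep (oneRep p) U)).ρ.invariants) (x y : GQ ⧸ U),
      SamePlace q U x y → f.1 x = f.1 y := by
    rintro f x y ⟨τ, rfl⟩
    have h := congrFun (f.2 τ) (primeLocalToGlobal q τ • x)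
    change (oneRep p).ρ _ (f.1 ((primeLocalToGlobal q τ)⁻¹ • primeLocalToGlobal q τ • x)) = _ at h
    rwa [inv_smul_smul, oneRep_apply] at h
  let Φ : (Sha.MLoc q (funRep (oneRep p) U)).ρ.invariants →ₗ[ZMod p]
      (Quot (SamePlace q U) → ZMod p) :=
    { toFun := fun f => Quot.lift f.1 (hinv f)
      map_add' := fun f f' => funext fun c => Quot.inductionOn c fun _ => rfl
      map_smul' := fun a f => funext fun c => Quot.inductionOn c fun _ => rfl }
  have hΦ : Function.Injective Φ := fun f f' h =>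
    Subtype.ext (funext fun x => congrFun h (Quot.mk _ x))
  exact (LinearMap.finrank_le_finrank_of_injective hΦ).trans
    (by rw [Module.finrank_pi, Nat.card_eq_fintype_card])

theorem one_le_finrank_invariants (hU : IsLevelSubgroup Levels.all (MonoidHom.id GQ) U) :
    1 ≤ finrank (ZMod p) (funRep (oneRep p) U).ρ.invariants := by
  haveI := hU.finite_quotient
  haveI : FiniteDimensional (ZMod p) (funRep (oneRep p) U) :=
    inferInstanceAs (FiniteDimensional (ZMod p) (GQ ⧸ U → ZMod p))
  have hone : (fun _ => 1 : GQ ⧸ U → ZMod p) ∈ (funRep (oneRep p) U).ρ.invariants := fun g =>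
    funext fun x => oneRep_apply g 1
  haveI : Nontrivial (funRep (oneRep p) U).ρ.invariants :=
    ⟨⟨0, ⟨_, hone⟩, fun h => zero_ne_one (congrFun (congrArg Subtype.val h) (QuotientGroup.mk 1))⟩⟩
  exact finrank_pos

/-- The Euler characteristic bound for `funRep U μ_p`. -/
theorem perm_euler_le_proof (hp2 : p ≠ 2) (hpS : pPrime p ∈ S)
    (hU : IsLevelSubgroup (Levels.unr S) (MonoidHom.id GQ) U)
    (hμ : ∀ g ∈ U, cycloChar p g = 1) :
    FiniteDimensional (ZMod p) (H1c (Levels.unr S) (MonoidHom.id GQ) (funRep (muRep p) U)) ∧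
    FiniteDimensional (ZMod p) (H2c (Levels.unr S) (MonoidHom.id GQ) (funRep (muRep p) U)) ∧
    2 * (1 + finrank (ZMod p) (H2c (Levels.unr S) (MonoidHom.id GQ) (funRep (muRep p) U)))
        + U.index ≤
      2 * finrank (ZMod p) (H1c (Levels.unr S) (MonoidHom.id GQ) (funRep (muRep p) U)) := by
  classical
  haveI := numberField_fixedField hU.to_all
  haveI := finiteDimensional_fixedField hU.to_all
  haveI := hU.finite_quotient
  haveI := Fintype.ofFinite (GQ ⧸ U)
  haveI : FiniteDimensional (ZMod p) (funRep (muRep p) U) := finiteDimensional_funRep hU.to_all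
  haveI : FiniteDimensional (ZMod p) (funRep (oneRep p) U) :=
    inferInstanceAs (FiniteDimensional (ZMod p) (GQ ⧸ U → ZMod p))
  have hM : IsSmoothRep (Levels.unr S) (MonoidHom.id GQ) (funRep (muRep p) U) :=
    isSmoothRep_funRep (Levels.hasNormal_unr S) hU (isSmoothRep_muRep_of_unr hpS)
  have hA : IsSmoothRep (Levels.unr S) (MonoidHom.id GQ) (funRep (oneRep p) U) :=
    isSmoothRep_funRep (Levels.hasNormal_unr S) hU isSmoothRep_oneRep
  haveI hH1 := finite_H1c_unr_proof S (funRep (muRep p) U) hM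
  set L := IntermediateField.fixedField U
  set T := placesOver S L
  set M := funRep (muRep p) U
  set P := permPair p U
  obtain ⟨hfin, hcard⟩ := finite_sha_funRep hp2 hpS hU hμ
  let eSha : ↥(Sha.Sha2 S M) ≃ {x : H2c (Levels.unr S) (MonoidHom.id GQ) M //
      ∀ q ∈ S, locS q M x = 0} :=
    Equiv.subtypeEquivRight fun x => by
      simp [Sha.Sha2, LinearMap.mem_ker, Sha.loc2T, funext_iff, Sha.loc2]
  haveI : Finite ↥(Sha.Sha2 S M) := Finite.of_equiv _ eSha.symm
  haveI : FiniteDimensional (ZMod p) ↥(Sha.Sha2 S M) := Module.Finite.of_finite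
  have hker := Sha.ker_thetaTot hp2 hA hM P
  haveI : FiniteDimensional (ZMod p) ↥(LinearMap.ker (Sha.thetaTot P (S := S))) := by
    rw [hker]; infer_instance
  haveI : FiniteDimensional (ZMod p)
      (Sha.G2 S M ⧸ LinearMap.ker (Sha.thetaTot P (S := S))) :=
    Module.Finite.equiv (Sha.thetaTot P (S := S)).quotKerEquivRange.symm
  haveI hH2 : FiniteDimensional (ZMod p) (Sha.G2 S M) :=
    Module.Finite.of_submodule_quotient (LinearMap.ker (Sha.thetaTot P (S := S)))
  refine ⟨hH1, hH2, ?_⟩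
  have h1 := LinearMap.finrank_range_add_finrank_ker (Sha.thetaTot P (S := S))
  rw [hker] at h1
  have hann : LinearMap.range (Sha.thetaTot P (S := S)) ≤
      (LinearMap.range (Sha.diag0 S (funRep (oneRep p) U))).dualAnnihilator := by
    rintro _ ⟨x, rfl⟩
    rw [Submodule.mem_dualAnnihilator]
    rintro _ ⟨a, rfl⟩
    exact Sha.thetaTot_diag0 hp2 hpS P x a
  have h2 := Submodule.finrank_mono hann
  have h3 := Subspace.finrank_add_finrank_dualAnnihilator_eq
    (LinearMap.range (Sha.diag0 S (funRep (oneRep p) U)))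
  rw [LinearMap.finrank_range_of_inj (Sha.diag0_injective hpS), Module.finrank_pi_fintype] at h3
  have h4 := (Finset.sum_le_sum fun (q : ↥S) _ =>
    finrank_local_invariants_le (p := p) hU.to_all q.1).trans (sum_card_samePlace_le hU.to_all)
  have h5 := one_le_finrank_invariants (p := p) hU.to_all
  have hH1fin : Finite (H1c (Levels.unr S) (MonoidHom.id GQ) M) := Module.finite_of_finite (ZMod p)
  have h6 := natCard_H1c_ge hp2 hpS hU hμ
  rw [natCard_torsion_eq_natCard_mod] at h6
  have h7 := (Nat.mul_le_mul_left _ ((Nat.card_congr eSha).le.trans hcard)).trans h6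
  rw [Module.natCard_eq_pow_finrank (K := ZMod p) (V := ↥(Sha.Sha2 S M)),
    Module.natCard_eq_pow_finrank (K := ZMod p) (V := H1c (Levels.unr S) (MonoidHom.id GQ) M),
    Nat.card_zmod, ← pow_add, Nat.pow_le_pow_iff_right (Fact.out : p.Prime).one_lt] at h7
  obtain ⟨ζ, hζ⟩ : ∃ ζ : L, IsPrimitiveRoot ζ p := by
    have hmem : ((zetaP p : AlgebraicClosure ℚ)) ∈ L := fun u => by
      have hz : muInc p (1 : ZMod p) = zetaP p := by
        rw [show (1 : ZMod p) = ((1 : ℕ) : ZMod p) from Nat.cast_one.symm, muInc_natCast, pow_one]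
      show (u : GQ) (zetaP p : AlgebraicClosure ℚ) = _
      rw [← hz, gal_muInc_of_eq_one (hμ u u.2)]
    exact ⟨⟨_, hmem⟩, IsPrimitiveRoot.of_map_of_injective (f := L.val)
      (IsPrimitiveRoot.coe_units_iff.2 zetaP_isPrimitiveRoot) Subtype.val_injective⟩
  have h8 := InfinitePlace.card_add_two_mul_card_eq_rank L
  rw [InfinitePlace.IsPrimitiveRoot.nrRealPlaces_eq_zero_of_two_lt
    (lt_of_le_of_ne (Fact.out : p.Prime).two_le (Ne.symm hp2)) hζ,
    finrank_fixedField hU.to_all] at h8
  change 2 * (1 + finrank (ZMod p) (Sha.G2 S M)) + U.index ≤ _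
  have arith : ∀ {g sha rg ann iv sm t r h idx : ℕ}, rg + sha = g → rg ≤ ann → iv + ann = sm →
      sm ≤ t → 1 ≤ iv → t + r + sha ≤ h → 0 + 2 * r = idx → 2 * (1 + g) + idx ≤ 2 * h := by omega
  exact arith h1 h2 h3 h4 h5 h7 h8

theorem finite_H2c_unr_proof (hp2 : p ≠ 2) (hpS : pPrime p ∈ S)
    (M : Rep.{0} (ZMod p) GQ) [FiniteDimensional (ZMod p) M]
    (hM : IsSmoothRep (Levels.unr S) (MonoidHom.id GQ) M) :
    FiniteDimensional (ZMod p) (H2c (Levels.unr S) (MonoidHom.id GQ) M) := by
  classical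
  haveI : Finite M := Module.finite_of_finite (ZMod p)
  obtain ⟨F₁, hF₁, h₁⟩ := hM.exists_fix (f := fun m : M => m) (Set.toFinite _)
  obtain ⟨F₂, hF₂, h₂⟩ := (isSmoothRep_muRep_of_unr hpS) (1 : ZMod p)
  obtain ⟨F, hF, hN, hle₁, hle₂⟩ := Levels.exists_normal₂ (Levels.normalBasis_unr S)
    (F₁ := F₁) (F₂ := F₂) hF₁ hF₂
  set U := F.fixingSubgroup
  have hU : IsLevelSubgroup (Levels.unr S) (MonoidHom.id GQ) U := ⟨F, hF, fun s hs => hs⟩
  have htriv : ∀ s ∈ U, ∀ m : M, M.ρ s m = m := fun s hs =>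
    h₁ s (IntermediateField.fixingSubgroup_antitone hle₁ hs)
  have hμ : ∀ g ∈ U, cycloChar p g = 1 := fun g hg => by
    have := h₂ g (IntermediateField.fixingSubgroup_antitone hle₂ hg)
    rw [muRep_apply, mul_one] at this
    exact Units.ext this
  obtain ⟨-, hfun, -⟩ := perm_euler_le_proof hp2 hpS hU hμ
  haveI := hU.finite_quotient
  haveI : FiniteDimensional (ZMod p) (H2c (Levels.unr S) U.subtype (muSub p U)) :=
    Module.Finite.of_surjective (shapiro₂ (L := Levels.unr S) (r := MonoidHom.id GQ) U (muRep p))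
      (shapiro₂_bijective (Levels.hasNormal_unr S) hU (isSmoothRep_muRep_of_unr hpS)).2
  let b := Module.finBasis (ZMod p) M
  let coords := LinearMap.pi fun i => pushH2 (L := Levels.unr S) (r := U.subtype)
    (M := Rep.res U.subtype M) (M' := muSub p U) (b.coord i) fun g m => by
      change b.coord i (M.ρ (g : GQ) m) = (muRep p).ρ (g : GQ) (b.coord i m)
      rw [htriv g g.2, muRep_apply, hμ g g.2, Units.val_one, one_mul]
  have hcoords : Function.Injective coords := by
    rw [injective_iff_map_eq_zero]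
    intro x hx
    obtain ⟨c, rfl⟩ := Submodule.mkQ_surjective _ x
    choose y hy hyd using fun i => (Submodule.Quotient.mk_eq_zero _).1 (congrFun hx i)
    choose Fi hFi hyF using hy
    obtain ⟨F', hF', hle⟩ := Levels.exists_ge (L := Levels.unr S) Fi hFi
    refine (Submodule.Quotient.mk_eq_zero _).2
      ⟨fun g => ∑ i, y i g • b i, ⟨F', hF', fun g s hs => ?_⟩, funext fun ⟨s, t⟩ => ?_⟩
    · exact Finset.sum_congr rfl fun i _ => by
        rw [hyF i g s (IntermediateField.fixingSubgroup_antitone (hle i) hs)]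
    · rw [d₁₂_hom_apply]
      change M.ρ (s : GQ) (∑ i, y i t • b i) - ∑ i, y i (s * t) • b i + ∑ i, y i s • b i = c.1 (s, t)
      rw [htriv s s.2, ← Finset.sum_sub_distrib, ← Finset.sum_add_distrib]
      conv_rhs => rw [← b.sum_repr (c.1 (s, t))]
      refine Finset.sum_congr rfl fun i _ => ?_
      have h := congrFun (hyd i) (s, t)
      change (muRep p).ρ (s : GQ) (y i t) - y i (s * t) + y i s = b.repr (c.1 (s, t)) i at h
      rw [muRep_apply, hμ s s.2, Units.val_one, one_mul] at h
      rw [← h, add_smul, sub_smul]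
  haveI : FiniteDimensional (ZMod p)
      (H2c (Levels.unr S) ((MonoidHom.id GQ).comp U.subtype) (Rep.res U.subtype M)) :=
    Module.Finite.of_injective coords hcoords
  haveI : FiniteDimensional (ZMod p) (funRep M U) :=
    inferInstanceAs (FiniteDimensional (ZMod p) (GQ ⧸ U → M))
  have hB : IsSmoothRep (Levels.unr S) (MonoidHom.id GQ) (funRep M U) :=
    isSmoothRep_funRep (Levels.hasNormal_unr S) hU hM
  haveI : FiniteDimensional (ZMod p) (H2c (Levels.unr S) (MonoidHom.id GQ) (funRep M U)) :=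
    Module.Finite.of_injective (shapiro₂ (L := Levels.unr S) (r := MonoidHom.id GQ) U M)
      (shapiro₂_bijective (Levels.hasNormal_unr S) hU hM).1
  let φ : M →ₗ[ZMod p] funRep M U :=
    { toFun := fun m _ => m, map_add' := fun _ _ => rfl, map_smul' := fun _ _ => rfl }
  have hφ : ∀ g m, φ (M.ρ g m) = (funRep M U).ρ g (φ m) := fun g m => rfl
  have hφi : Function.Injective φ := fun a b h => congrFun h (QuotientGroup.mk 1)
  let W : Submodule (ZMod p) (GQ ⧸ U → M) := LinearMap.range φ
  let Q : Rep.{0} (ZMod p) GQ := Rep.of ((funRepρ M U).quotient W fun g f hf => by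
    obtain ⟨m, rfl⟩ := hf
    exact ⟨M.ρ g m, hφ g m⟩)
  let ψ : funRep M U →ₗ[ZMod p] Q := W.mkQ
  have hψ : ∀ g f, ψ ((funRep M U).ρ g f) = Q.ρ g (ψ f) := fun g f => rfl
  have hψs : Function.Surjective ψ := Submodule.mkQ_surjective W
  have hex : Function.Exact φ ψ := LinearMap.exact_map_mkQ_range φ
  haveI : FiniteDimensional (ZMod p) Q :=
    Module.Finite.of_surjective ψ hψs
  haveI : Finite Q := Module.finite_of_finite (ZMod p)
  have hQ : IsSmoothRep (Levels.unr S) (MonoidHom.id GQ) Q := fun y => by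
    obtain ⟨f, rfl⟩ := hψs y
    obtain ⟨F', hF', h'⟩ := hB f
    exact ⟨F', hF', fun s hs => by rw [← hψ, h' s hs]⟩
  haveI := finite_H1c_unr_proof S Q hQ
  haveI : Finite (H1c (Levels.unr S) (MonoidHom.id GQ) Q) := Module.finite_of_finite (ZMod p)
  let i2 := pushH2 (L := Levels.unr S) (r := MonoidHom.id GQ) φ hφ
  choose rep hrep using fun x : LinearMap.ker i2 => Submodule.mkQ_surjective _ x.1
  choose z hzc hzψ hzd using fun x : LinearMap.ker i2 =>
    H2c_ker_eq_delta φ hφ ψ hψ (Levels.hasNormal_unr S) hB hφi hψs hex (rep x) (by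
      show i2 (Submodule.mkQ _ (rep x)) = 0
      rw [hrep x]; exact LinearMap.mem_ker.1 x.2)
  have hmem : ∀ x, (fun g => ψ (z x g)) ∈ cocycles₁ Q := fun x => (mem_cocycles₁_iff _).2 (hzψ x)
  haveI : Finite ↥(LinearMap.ker i2) := by
    refine Finite.of_injective (fun x => (⟨(H1π Q).hom ⟨_, hmem x⟩, ⟨_, (hzc x).comp ψ, rfl⟩⟩ :
      H1c (Levels.unr S) (MonoidHom.id GQ) Q)) fun x y hxy => ?_
    obtain ⟨e, he⟩ := (H1π_eq_iff _ _).1 (congrArg Subtype.val hxy)
    obtain ⟨f, rfl⟩ := hψs e
    have hker : ∀ g, ψ (z x g - z y g - ((funRep M U).ρ g f - f)) = 0 := fun g => by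
      have := congrFun he g
      change Q.ρ g (ψ f) - ψ f = ψ (z x g) - ψ (z y g) at this
      rw [map_sub, map_sub, map_sub, hψ, this, sub_self]
    choose a ha using fun g => (hex _).1 (hker g)
    have hac : IsConst₁ (Levels.unr S) (MonoidHom.id GQ) a := by
      obtain ⟨F', hF', h'⟩ := hB f
      have hd0 : IsConst₁ (Levels.unr S) (MonoidHom.id GQ)
          (fun g => (funRep M U).ρ g f - f) :=
        ⟨F', hF', fun g s hs => by
          show (funRep M U).ρ (g * s) f - f = _
          rw [map_mul, Module.End.mul_apply, h' s hs]⟩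
      have h0 := (((hzc x).prodMk (hzc y)).prodMk hd0).comp fun w => w.1.1 - w.1.2 - w.2
      obtain ⟨F'', hF'', h''⟩ := h0
      exact ⟨F'', hF'', fun g s hs => hφi (by
        rw [ha, ha]; exact h'' g s hs)⟩
    apply Subtype.ext
    rw [← hrep x, ← hrep y, ← sub_eq_zero, ← map_sub]
    refine (Submodule.Quotient.mk_eq_zero _).2 ⟨a, hac, funext fun ⟨s, t⟩ => hφi ?_⟩
    rw [d₁₂_hom_apply]
    change φ (M.ρ s (a t) - a (s * t) + a s) = φ ((rep x).1 (s, t) - (rep y).1 (s, t))
    simp only [map_add, map_sub, hφ, hzd, ha, map_mul, Module.End.mul_apply]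
    abel
  haveI : FiniteDimensional (ZMod p) ↥(LinearMap.ker i2) := Module.Finite.of_finite
  haveI : FiniteDimensional (ZMod p)
      (H2c (Levels.unr S) (MonoidHom.id GQ) M ⧸ LinearMap.ker i2) :=
    Module.Finite.equiv i2.quotKerEquivRange.symm
  exact Module.Finite.of_submodule_quotient (LinearMap.ker i2)

end Fermat.Agent.CFT
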