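import Fermat.Agent.CFT.Setup
import Fermat.Agent.CFT.HermiteS

/-!
# Smoothness at level `S`, finiteness of `H¹`
-/

set_option autoImplicit false
set_option linter.style.haveILetI false

open CategoryTheory groupCohomology ExtCitation Module

noncomputable section

namespace Fermat.Agent.CFT

variable {p : ℕ} [Fact p.Prime] (S : Finset Nat.Primes)

theorem isSmoothRep_unr_proof (M : Rep.{0} (ZMod p) GQ) [FiniteDimensional (ZMod p) M]
    (hsm : ∀ m : M, ∃ F : IntermediateField ℚ (AlgebraicClosure ℚ), FiniteDimensional ℚ F ∧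
      ∀ s ∈ F.fixingSubgroup, M.ρ s m = m)
    (hMur : ∀ q : Nat.Primes, q ∉ S → ∀ A : ValuationSubring (AlgebraicClosure ℚ),
      A.LiesOverPrime (q : ℕ) → ∀ g ∈ A.inertiaSubgroupIn ℚ, M.ρ g = 1) :
    IsSmoothRep (Levels.unr S) (MonoidHom.id GQ) M := fun m => by
  obtain ⟨F, hFu, hF⟩ := exists_unramifiedOutside_trivial M S hsm hMur
  exact ⟨F, hFu, fun s hs => by rw [hF s hs, Module.End.one_apply]⟩

theorem finite_H1c_unr_proof (M : Rep.{0} (ZMod p) GQ) [FiniteDimensional (ZMod p) M]
    (hM : IsSmoothRep (Levels.unr S) (MonoidHom.id GQ) M) :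
    FiniteDimensional (ZMod p) (H1c (Levels.unr S) (MonoidHom.id GQ) M) := by
  haveI : Finite M := Module.finite_of_finite (ZMod p)
  haveI : Finite (continuousH1S S M) := by
    refine finite_continuousH1S_of_smooth M S (fun m => ?_) (fun q hq A hA g hg => ?_)
    · obtain ⟨F, hF, h⟩ := hM m
      exact ⟨F, (Levels.unr S).finite F hF, fun s hs => h s hs⟩
    · refine LinearMap.ext fun m => ?_
      obtain ⟨F, hF, h⟩ := hM m
      rw [Module.End.one_apply]
      exact h g (hF.2 q hq A hA hg)
  exact Module.Finite.of_finite (R := ZMod p) (M := continuousH1S S M)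

end Fermat.Agent.CFT
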