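import Fermat.Agent.CFT.SUnitsModP
import Mathlib.RingTheory.DedekindDomain.Factorization
import Mathlib.RingTheory.ClassGroup.Basic

/-!
# Divisors away from a finite set of primes and the `S`-class group
-/

set_option autoImplicit false
set_option linter.style.haveILetI false

open NumberField IsDedekindDomain
open scoped nonZeroDivisors

noncomputable section

namespace Fermat.Agent.CFT

variable {K : Type*} [Field K] [NumberField K]

/-- The order of `x` at `v`. -/
def ordP (v : HeightOneSpectrum (𝓞 K)) (x : Kˣ) : ℤ :=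
  FractionalIdeal.count K v (FractionalIdeal.spanSingleton (𝓞 K)⁰ (x : K))

theorem spanSingleton_unit_ne_zero (x : Kˣ) :
    FractionalIdeal.spanSingleton (𝓞 K)⁰ (x : K) ≠ 0 :=
  mt FractionalIdeal.spanSingleton_eq_zero_iff.1 x.ne_zero

theorem ordP_mul (v : HeightOneSpectrum (𝓞 K)) (x y : Kˣ) :
    ordP v (x * y) = ordP v x + ordP v y := by
  rw [ordP, Units.val_mul, ← FractionalIdeal.spanSingleton_mul_spanSingleton,
    FractionalIdeal.count_mul K v (spanSingleton_unit_ne_zero x) (spanSingleton_unit_ne_zero y)]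
  rfl

theorem valuation_eq_exp_ordP (v : HeightOneSpectrum (𝓞 K)) (x : Kˣ) :
    v.valuation K (x : K) = WithZero.exp (-ordP v x) := by
  classical
  obtain ⟨a, b, hb, hab⟩ := IsFractionRing.div_surjective (𝓞 K) (x : K)
  have hb0 : (b : 𝓞 K) ≠ 0 := nonZeroDivisors.ne_zero hb
  have ha0 : a ≠ 0 := by
    rintro rfl
    rw [map_zero, zero_div] at hab
    exact x.ne_zero hab.symm
  have hJ : FractionalIdeal.spanSingleton (𝓞 K)⁰ (x : K) =
      FractionalIdeal.spanSingleton (𝓞 K)⁰ ((algebraMap (𝓞 K) K) b)⁻¹ *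
        ((Ideal.span {a} : Ideal (𝓞 K)) : FractionalIdeal (𝓞 K)⁰ K) := by
    rw [FractionalIdeal.coeIdeal_span_singleton, FractionalIdeal.spanSingleton_mul_spanSingleton,
      ← hab, div_eq_inv_mul]
  rw [ordP, FractionalIdeal.count_well_defined K v (spanSingleton_unit_ne_zero x) hJ, ← hab,
    map_div₀, v.valuation_of_algebraMap, v.valuation_of_algebraMap, v.intValuation_if_neg ha0,
    v.intValuation_if_neg hb0, ← WithZero.exp_sub]
  congr 1
  ring

theorem ordP_eq_zero_iff (v : HeightOneSpectrum (𝓞 K)) (x : Kˣ) :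
    ordP v x = 0 ↔ v.valuation K (x : K) = 1 := by
  rw [valuation_eq_exp_ordP, ← WithZero.exp_zero, WithZero.exp_inj, neg_eq_zero]

variable (T : Finset (HeightOneSpectrum (𝓞 K)))

/-- Primes outside `T`. -/
abbrev OffPrimes : Type _ := {v : HeightOneSpectrum (𝓞 K) // v ∉ T}

theorem ordP_finite_support (x : Kˣ) : {v : OffPrimes T | ordP v.1 x ≠ 0}.Finite := by
  have h := FractionalIdeal.finite_factors (FractionalIdeal.spanSingleton (𝓞 K)⁰ (x : K))
  rw [Filter.eventually_cofinite] at h
  exact h.preimage Subtype.val_injective.injOn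

/-- The divisor away from `T`. -/
def divOff : Additive Kˣ →+ (OffPrimes T →₀ ℤ) :=
  AddMonoidHom.mk' (fun x => Finsupp.ofSupportFinite (fun v => ordP v.1 x.toMul)
    (ordP_finite_support T x.toMul)) fun x y => by
      ext v
      exact ordP_mul v.1 x.toMul y.toMul

@[simp]
theorem divOff_apply (x : Additive Kˣ) (v : OffPrimes T) :
    divOff T x v = ordP v.1 x.toMul := rfl

/-- The class group away from `T`. -/
abbrev SClass : Type _ := (OffPrimes T →₀ ℤ) ⧸ (divOff T).range

/-- The fractional ideal of a divisor. -/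
def offIdeal (d : OffPrimes T →₀ ℤ) : FractionalIdeal (𝓞 K)⁰ K :=
  (d.mapDomain Subtype.val).prod fun v k => (v.asIdeal : FractionalIdeal (𝓞 K)⁰ K) ^ k

theorem offIdeal_ne_zero (d : OffPrimes T →₀ ℤ) : offIdeal T d ≠ 0 :=
  Finset.prod_ne_zero_iff.2 fun v _ => zpow_ne_zero _ (FractionalIdeal.coeIdeal_ne_zero.2 v.ne_bot)

theorem count_offIdeal (d : OffPrimes T →₀ ℤ) (v : OffPrimes T) :
    FractionalIdeal.count K v.1 (offIdeal T d) = d v := by
  rw [offIdeal, FractionalIdeal.count_finsuppProd,
    Finsupp.mapDomain_apply Subtype.val_injective]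

instance finite_SClass : Finite (SClass T) := by
  refine Finite.of_injective (β := ClassGroup (𝓞 K))
    (fun c => ClassGroup.mk K (Units.mk0 _ (offIdeal_ne_zero T c.out))) fun c c' h => ?_
  have h1 : ClassGroup.mk K (Units.mk0 _ (offIdeal_ne_zero T c.out) /
      Units.mk0 _ (offIdeal_ne_zero T c'.out)) = 1 := by
    rw [map_div, div_eq_one]; exact h
  rw [ClassGroup.mk_eq_one_iff, FractionalIdeal.isPrincipal_iff] at h1
  obtain ⟨x, hx⟩ := h1
  have hx0 : x ≠ 0 := by
    rintro rfl
    rw [FractionalIdeal.spanSingleton_zero] at hx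
    exact Units.ne_zero _ hx
  rw [← c.out_eq', ← c'.out_eq', QuotientAddGroup.eq]
  refine ⟨-Additive.ofMul (Units.mk0 x hx0), Finsupp.ext fun v => ?_⟩
  have h2 := congrArg (FractionalIdeal.count K v.1) hx
  rw [Units.val_div_eq_div_val, Units.val_mk0, Units.val_mk0, div_eq_mul_inv,
    FractionalIdeal.count_mul K v.1 (offIdeal_ne_zero T _)
      (inv_ne_zero (offIdeal_ne_zero T _)), FractionalIdeal.count_inv, count_offIdeal,
    count_offIdeal] at h2
  simp only [map_neg, Finsupp.neg_apply, Finsupp.add_apply, divOff_apply, toMul_ofMul, ordP,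
    Units.val_mk0, ← h2]
  ring

variable {p : ℕ}

/-- `p`-torsion classes lift to elements with divisor divisible by `p`. -/
theorem exists_divOff_eq_smul {c : SClass T} (hc : p • c = 0) :
    ∃ x : Kˣ, divOff T (Additive.ofMul x) = p • c.out := by
  have h : (QuotientAddGroup.mk (p • c.out) : SClass T) = 0 := by
    rw [QuotientAddGroup.mk_nsmul, QuotientAddGroup.out_eq', hc]
  obtain ⟨x, hx⟩ := (QuotientAddGroup.eq_zero_iff _).1 h
  exact ⟨x.toMul, hx⟩

theorem natCard_torsion_eq_natCard_mod {C : Type*} [AddCommGroup C] [Finite C] (p : ℕ) :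
    Nat.card {c : C // p • c = 0} = Nat.card (C ⧸ (nsmulAddMonoidHom p : C →+ C).range) := by
  change Nat.card (nsmulAddMonoidHom p : C →+ C).ker = (nsmulAddMonoidHom p : C →+ C).range.index
  rw [AddSubgroup.index_range]

end Fermat.Agent.CFT
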