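import Fermat.Agent.CFT.PrimeBridge
import Fermat.Agent.Galois.Unramified

/-!
# Value groups at unramified primes
-/

set_option autoImplicit false
set_option linter.style.haveILetI false

open Module NumberField IsDedekindDomain WithZero

noncomputable section

namespace Fermat.Agent.CFT

theorem galNorm_mul (q : Nat.Primes) (g : GQ) (a b : AlgebraicClosure ℚ) :
    galNorm q g (a * b) = galNorm q g a * galNorm q g b := by
  simp [galNorm]

theorem galNorm_inv (q : Nat.Primes) (g : GQ) (a : AlgebraicClosure ℚ) :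
    galNorm q g a⁻¹ = (galNorm q g a)⁻¹ := by
  simp [galNorm]

theorem galNorm_pow (q : Nat.Primes) (g : GQ) (a : AlgebraicClosure ℚ) (n : ℕ) :
    galNorm q g (a ^ n) = galNorm q g a ^ n := by
  simp [galNorm]

theorem galNorm_zpow (q : Nat.Primes) (g : GQ) (a : AlgebraicClosure ℚ) (n : ℤ) :
    galNorm q g (a ^ n) = galNorm q g a ^ n := by
  simp [galNorm, map_zpow₀]

theorem galNorm_pos (q : Nat.Primes) (g : GQ) {a : AlgebraicClosure ℚ} (ha : a ≠ 0) :
    0 < galNorm q g a := by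
  simpa [galNorm] using ha

variable {q : Nat.Primes}

/-- At an unramified prime of a Galois level the rational prime is a uniformiser. -/
theorem valuation_primeAt_natCast (N : IntermediateField ℚ (AlgebraicClosure ℚ))
    [FiniteDimensional ℚ N] [IsGalois ℚ N] [NumberField N]
    (hN : Fermat.Agent.Galois.InertiaLE (q : ℕ) N.fixingSubgroup) (g : GQ) :
    (primeAt N q g).valuation N ((q : ℕ) : N) = exp (-1 : ℤ) := by
  set v := primeAt N q g with hv
  have hd := (Fermat.Agent.Galois.inertiaLE_iff_not_dvd_discr N q.2).1 hN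
  have hqP : ((q : ℕ) : 𝓞 N) ∈ v.asIdeal := natCast_mem_primeUnder N q g
  have hu := (NumberField.not_dvd_discr_iff_forall_mem N (𝓞 N)
    (Nat.prime_iff_prime_int.mp q.2)).1 hd v.asIdeal v.isPrime
    (by rw [Int.cast_natCast]; exact hqP)
  haveI := v.isPrime
  haveI := hu
  have he := Ideal.ramificationIdx_eq_one v.asIdeal ℤ
  have hmap : (Ideal.span {((q : ℕ) : ℤ)}).map (algebraMap ℤ (𝓞 N))
      = Ideal.span {((q : ℕ) : 𝓞 N)} := by
    rw [Ideal.map_span, Set.image_singleton, map_natCast]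
  haveI : v.asIdeal.LiesOver (Ideal.span {((q : ℕ) : ℤ)}) :=
    (Ideal.liesOver_span_iff v.isPrime.ne_top (Nat.prime_iff_prime_int.mp q.2)).mpr
      (by rw [map_natCast]; exact hqP)
  rw [← Ideal.ramificationIdx'_eq_ramificationIdx' (Ideal.span {((q : ℕ) : ℤ)}) v.asIdeal
    (by rw [hmap, Ne, Ideal.span_singleton_eq_bot, Nat.cast_eq_zero]; exact q.2.ne_zero)] at he
  have hnot : ¬ ((q : ℕ) : 𝓞 N) ∈ v.asIdeal ^ 2 := fun h2 =>
    (Ideal.ramificationIdx'_ne_one_iff (by
      rw [hmap, Ideal.span_singleton_le_iff_mem]; exact hqP)).2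
      (by rw [hmap, Ideal.span_singleton_le_iff_mem]; exact h2) he
  rw [show ((q : ℕ) : N) = algebraMap (𝓞 N) N ((q : ℕ) : 𝓞 N) from (map_natCast _ _).symm,
    v.valuation_of_algebraMap]
  have hne : v.intValuation ((q : ℕ) : 𝓞 N) ≠ 0 :=
    v.intValuation_ne_zero _ (Nat.cast_ne_zero.2 q.2.ne_zero)
  have h1 : v.intValuation ((q : ℕ) : 𝓞 N) ≤ exp (-((1 : ℕ) : ℤ)) :=
    (v.intValuation_le_pow_iff_mem _ 1).2 (by simpa using hqP)
  have h2 : ¬ v.intValuation ((q : ℕ) : 𝓞 N) ≤ exp (-((2 : ℕ) : ℤ)) :=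
    fun h => hnot ((v.intValuation_le_pow_iff_mem _ 2).1 h)
  rw [← exp_log hne, exp_le_exp] at h1 h2
  rw [← exp_log hne, exp_inj]
  omega

/-- In a level unramified at `q` every `q`-adic absolute value is a power of `q`. -/
theorem exists_galNorm_eq_zpow {F : IntermediateField ℚ (AlgebraicClosure ℚ)}
    [FiniteDimensional ℚ F] (hF : Fermat.Agent.Galois.InertiaLE (q : ℕ) F.fixingSubgroup) (g : GQ)
    {a : AlgebraicClosure ℚ} (ha : a ∈ F) (ha0 : a ≠ 0) :
    ∃ k : ℤ, galNorm q g a = ((q : ℕ) : ℝ) ^ k := by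
  let N := IntermediateField.normalClosure ℚ F (AlgebraicClosure ℚ)
  haveI : Normal ℚ N := normalClosure.normal ℚ F _
  haveI : IsGalois ℚ N := ⟨⟩
  haveI : NumberField N := NumberField.of_module_finite ℚ N
  have hN := Fermat.Agent.Galois.inertiaLE_normalClosure hF
  set v := primeAt N q g
  let b : N := ⟨a, F.le_normalClosure ha⟩
  have hb0 : b ≠ 0 := fun h => ha0 (congrArg Subtype.val h)
  obtain ⟨m, hm⟩ : ∃ m : ℤ, v.valuation N b = exp m :=
    ⟨_, (exp_log ((v.valuation N).ne_zero_iff.2 hb0)).symm⟩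
  let c : N := b * ((q : ℕ) : N) ^ m
  have hc : v.valuation N c = 1 := by
    rw [map_mul, map_zpow₀, valuation_primeAt_natCast N hN g, hm, ← exp_zsmul, ← exp_add]
    simp
  have hc1 : galNorm q g (c : AlgebraicClosure ℚ) = 1 := by
    refine le_antisymm ?_ ?_
    · by_contra h
      have hinv : galNorm q g ((c⁻¹ : N) : AlgebraicClosure ℚ) < 1 := by
        rw [IntermediateField.coe_inv, galNorm_inv]
        exact inv_lt_one_of_one_lt₀ (not_le.1 h)
      rw [← valuation_primeAt_lt_one_iff, map_inv₀, hc, inv_one] at hinv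
      exact lt_irrefl _ hinv
    · by_contra h
      have h' : galNorm q g (c : AlgebraicClosure ℚ) < 1 := not_le.1 h
      rw [← valuation_primeAt_lt_one_iff, hc] at h'
      exact lt_irrefl _ h'
  have hcast : (((((q : ℕ) : N) ^ m : N)) : AlgebraicClosure ℚ)
      = ((q : ℕ) : AlgebraicClosure ℚ) ^ m := by
    rw [show (((((q : ℕ) : N) ^ m : N)) : AlgebraicClosure ℚ) = N.val (((q : ℕ) : N) ^ m) from rfl,
      map_zpow₀, map_natCast]
  refine ⟨m, ?_⟩
  rw [show (c : AlgebraicClosure ℚ) = a * ((q : ℕ) : AlgebraicClosure ℚ) ^ m from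
      congrArg (a * ·) hcast, galNorm_mul, galNorm_zpow, galNorm_natCast,
    inv_zpow, mul_inv_eq_one₀ (zpow_ne_zero _ (Nat.cast_ne_zero.2 q.2.ne_zero))] at hc1
  exact hc1

end Fermat.Agent.CFT
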