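import Fermat.Agent.CFT.Interface.Cohomology
import Fermat.Agent.CFT.GlobalPerm.Smooth
import Fermat.Agent.CFT.GlobalPerm.Unramified
import Fermat.Agent.CFT.GlobalPerm.SDivisors
import Fermat.Agent.CFT.MuInc

/-!
# Kummer classes unramified outside `S` and the lower bound for `H¹`
-/

set_option autoImplicit false
set_option linter.style.haveILetI false

open CategoryTheory groupCohomology ExtCitation Module NumberField IsDedekindDomain
open scoped Pointwise

noncomputable section

namespace Fermat.Agent.CFT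

variable {S : Finset Nat.Primes} {U : Subgroup GQ}

theorem IsLevelSubgroup.to_all (hU : IsLevelSubgroup (Levels.unr S) (MonoidHom.id GQ) U) :
    IsLevelSubgroup Levels.all (MonoidHom.id GQ) U :=
  let ⟨F, hF, h⟩ := hU
  ⟨F, hF.1, h⟩

theorem IsLevelSubgroup.inertiaLE (hU : IsLevelSubgroup (Levels.unr S) (MonoidHom.id GQ) U)
    {q : Nat.Primes} (hq : q ∉ S) : Fermat.Agent.Galois.InertiaLE (q : ℕ) U := fun A hA g hg => by
  obtain ⟨F, hF, h⟩ := hU
  exact h g (hF.2 q hq A hA hg)

theorem finiteDimensional_fixedField (hU : IsLevelSubgroup Levels.all (MonoidHom.id GQ) U) :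
    FiniteDimensional ℚ (IntermediateField.fixedField U) := by
  obtain ⟨F, hF, h⟩ := hU
  haveI : FiniteDimensional ℚ F := hF
  have hle : IntermediateField.fixedField U ≤ F :=
    fixedField_le_of_le (F := F) fun s hs => h s hs
  exact FiniteDimensional.of_injective (IntermediateField.inclusion hle).toLinearMap
    (IntermediateField.inclusion_injective hle)

theorem numberField_fixedField (hU : IsLevelSubgroup Levels.all (MonoidHom.id GQ) U) :
    NumberField (IntermediateField.fixedField U) :=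
  haveI := finiteDimensional_fixedField hU
  NumberField.of_module_finite ℚ _

theorem finrank_fixedField (hU : IsLevelSubgroup Levels.all (MonoidHom.id GQ) U) :
    finrank ℚ (IntermediateField.fixedField U) = U.index := by
  obtain ⟨F, hF, h⟩ := hU
  haveI : FiniteDimensional ℚ F := hF
  exact finrank_fixedField_of_le fun s hs => h s hs

/-- At an unramified prime the normalised absolute value is given by `ordP`. -/
theorem galNorm_eq_zpow_ordP {L : IntermediateField ℚ (AlgebraicClosure ℚ)}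
    [FiniteDimensional ℚ L] [NumberField L] {q : Nat.Primes}
    (hL : Fermat.Agent.Galois.InertiaLE (q : ℕ) L.fixingSubgroup) (g : GQ) (x : Lˣ) :
    galNorm q g ((x : L) : AlgebraicClosure ℚ) = ((q : ℕ) : ℝ) ^ (-ordP (primeAt L q g) x) := by
  set v := primeAt L q g
  have hq1 : (1 : ℝ) < ((q : ℕ) : ℝ) := by exact_mod_cast q.2.one_lt
  have norm_one : ∀ y : Lˣ, ordP v y = 0 → galNorm q g ((y : L) : AlgebraicClosure ℚ) = 1 := by
    intro y hy
    have hy1 : v.valuation L (y : L) = 1 := (ordP_eq_zero_iff v y).1 hy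
    refine le_antisymm (not_lt.1 fun h => ?_) (not_lt.1 fun h => ?_)
    · have h' : galNorm q g (((y : L)⁻¹ : L) : AlgebraicClosure ℚ) < 1 := by
        rw [IntermediateField.coe_inv, galNorm_inv]; exact inv_lt_one_of_one_lt₀ h
      rw [← valuation_primeAt_lt_one_iff, map_inv₀, hy1, inv_one] at h'
      exact lt_irrefl _ h'
    · rw [← valuation_primeAt_lt_one_iff, hy1] at h
      exact lt_irrefl _ h
  have hadd : ∀ (y : Lˣ) (n : ℕ), ordP v (y ^ n) = n * ordP v y := by
    intro y n
    induction n with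
    | zero => simp [(ordP_eq_zero_iff v (1 : Lˣ)).2]
    | succ n ih => rw [pow_succ, ordP_mul, ih]; push_cast; ring
  obtain ⟨π, hπ⟩ := v.valuation_exists_uniformizer L
  have hπ0 : π ≠ 0 := by
    rintro rfl
    rw [map_zero] at hπ
    exact WithZero.exp_ne_zero hπ.symm
  let P : Lˣ := Units.mk0 π hπ0
  have hP : ordP v P = 1 := by
    have h := valuation_eq_exp_ordP v P
    rw [Units.val_mk0, hπ] at h
    have := WithZero.exp_injective h
    omega
  obtain ⟨k, hk⟩ := exists_galNorm_eq_zpow hL g (π : L).2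
    (fun h => hπ0 (Subtype.ext h))
  have hzpow : ∀ (y : Lˣ) (n : ℤ), ordP v (y ^ n) = n * ordP v y := by
    intro y n
    obtain ⟨n, rfl | rfl⟩ := n.eq_nat_or_neg
    · rw [zpow_natCast, hadd]
    · rw [zpow_neg, zpow_natCast]
      have h0 := ordP_mul v (y ^ n)⁻¹ (y ^ n)
      rw [inv_mul_cancel, (ordP_eq_zero_iff v (1 : Lˣ)).2 (by simp), hadd] at h0
      linarith
  have hgen : ∀ y : Lˣ, galNorm q g ((y : L) : AlgebraicClosure ℚ)
      = (((q : ℕ) : ℝ) ^ k) ^ ordP v y := by
    intro y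
    have h1 := norm_one (y * P ^ (-ordP v y)) (by rw [ordP_mul, hzpow, hP]; ring)
    have hcast : ((((y * P ^ (-ordP v y) : Lˣ)) : L) : AlgebraicClosure ℚ)
        = ((y : L) : AlgebraicClosure ℚ) * (π : AlgebraicClosure ℚ) ^ (-ordP v y) := by
      rw [Units.val_mul, Units.val_zpow_eq_zpow_val, Units.val_mk0]
      show L.val ((y : L) * π ^ (-ordP v y)) = _
      rw [map_mul, map_zpow₀]
      rfl
    rw [hcast, galNorm_mul, galNorm_zpow, hk, zpow_neg, mul_inv_eq_one₀
      (zpow_ne_zero _ (zpow_ne_zero _ (by positivity)))] at h1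
    exact h1
  have hqL : ((q : ℕ) : L) ≠ 0 := Nat.cast_ne_zero.2 q.2.ne_zero
  have hq' := hgen (Units.mk0 _ hqL)
  rw [Units.val_mk0, show (((q : ℕ) : L) : AlgebraicClosure ℚ) = ((q : ℕ) : AlgebraicClosure ℚ)
    from map_natCast L.val _, galNorm_natCast, ← zpow_neg_one, ← zpow_mul] at hq'
  have hk1 := zpow_right_injective₀ (by positivity) hq1.ne' hq'
  have he : 0 < ordP v (Units.mk0 _ hqL) := by
    have h := valuation_eq_exp_ordP v (Units.mk0 _ hqL)
    have h2 : v.valuation L ((q : ℕ) : L) < 1 := by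
      rw [valuation_primeAt_lt_one_iff,
        show (((q : ℕ) : L) : AlgebraicClosure ℚ) = ((q : ℕ) : AlgebraicClosure ℚ)
          from map_natCast L.val _]
      exact galNorm_natCast_lt_one q g
    rw [Units.val_mk0] at h
    rw [h, ← WithZero.exp_zero, WithZero.exp_lt_exp] at h2
    omega
  have hk2 : k = -1 := by
    set e := ordP v (Units.mk0 _ hqL)
    rcases Int.eq_one_or_neg_one_of_mul_eq_neg_one hk1.symm with h | h
    · subst h; omega
    · exact h
  rw [hgen, hk2, ← zpow_mul]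
  congr 1
  ring

theorem natPrimes_eq_of_mem {R : Type*} [CommRing R] {I : Ideal R} (hI : I ≠ ⊤)
    {q q' : Nat.Primes} (h : ((q : ℕ) : R) ∈ I) (h' : ((q' : ℕ) : R) ∈ I) : q = q' := by
  by_contra hne
  apply hI
  rw [Ideal.eq_top_iff_one]
  have hc : Nat.Coprime (q : ℕ) (q' : ℕ) :=
    (Nat.coprime_primes q.2 q'.2).2 fun e => hne (Subtype.ext e)
  have := hc.cast (R := R)
  obtain ⟨a, b, hab⟩ := this
  rw [← hab]
  exact add_mem (I.mul_mem_left _ h) (I.mul_mem_left _ h')

/-- The primes over `S`. -/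
def placesOver (S : Finset Nat.Primes) (L : IntermediateField ℚ (AlgebraicClosure ℚ))
    [NumberField L] : Finset (HeightOneSpectrum (𝓞 L)) :=
  ((Ideal.finite_factors (R := 𝓞 L) (I := Ideal.span {((∏ q ∈ S, (q : ℕ) : ℕ) : 𝓞 L)})
    (by rw [Ne, Ideal.zero_eq_bot, Ideal.span_singleton_eq_bot, Nat.cast_eq_zero,
        Finset.prod_eq_zero_iff]
        exact fun ⟨q, _, h⟩ => q.2.ne_zero h))).toFinset

theorem mem_placesOver {L : IntermediateField ℚ (AlgebraicClosure ℚ)} [NumberField L]
    {v : HeightOneSpectrum (𝓞 L)} :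
    v ∈ placesOver S L ↔ ∃ q ∈ S, ((q : ℕ) : 𝓞 L) ∈ v.asIdeal := by
  rw [placesOver, Set.Finite.mem_toFinset, Set.mem_ofPred_eq, Ideal.dvd_iff_le,
    Ideal.span_singleton_le_iff_mem, Nat.cast_prod]
  exact v.isPrime.prod_mem_iff

theorem primeAt_not_mem_placesOver {L : IntermediateField ℚ (AlgebraicClosure ℚ)} [NumberField L]
    {q : Nat.Primes} (hq : q ∉ S) (g : GQ) : primeAt L q g ∉ placesOver S L := by
  rw [mem_placesOver]
  rintro ⟨q', hq', h⟩
  exact hq (natPrimes_eq_of_mem (primeUnder_isPrime L q g).ne_top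
    (natCast_mem_primeUnder L q g) h ▸ hq')

/-- Units of an intermediate field as units of `ℚ̄`. -/
def unitsIncl (L : IntermediateField ℚ (AlgebraicClosure ℚ)) :
    Lˣ →* (AlgebraicClosure ℚ)ˣ :=
  Units.map (algebraMap L (AlgebraicClosure ℚ)).toMonoidHom

theorem unitsIncl_coe (L : IntermediateField ℚ (AlgebraicClosure ℚ)) (x : Lˣ) :
    (unitsIncl L x : AlgebraicClosure ℚ) = ((x : L) : AlgebraicClosure ℚ) := rfl

theorem apply_unitsIncl {u : GQ} (hu : u ∈ U) (x : (IntermediateField.fixedField U)ˣ) :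
    u (unitsIncl _ x : AlgebraicClosure ℚ) = unitsIncl _ x :=
  (x : IntermediateField.fixedField U).2 ⟨u, hu⟩

variable {p : ℕ} [Fact p.Prime]

/-- The Kummer cocycle of a root `α`. -/
def kummerFun (α : (AlgebraicClosure ℚ)ˣ) (u : GQ) : ZMod p :=
  muLog (Units.map u.toRingEquiv.toRingHom.toMonoidHom α / α)

theorem muInc_kummerFun {α : (AlgebraicClosure ℚ)ˣ} {u : GQ}
    (h : u ((α : AlgebraicClosure ℚ) ^ p) = (α : AlgebraicClosure ℚ) ^ p) :
    (muInc p (kummerFun α u) : AlgebraicClosure ℚ) * α = u α := by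
  have hw : (Units.map u.toRingEquiv.toRingHom.toMonoidHom α / α) ^ p = 1 := by
    rw [div_pow, div_eq_one]
    apply Units.ext
    rw [Units.val_pow_eq_pow_val, Units.val_pow_eq_pow_val]
    show u (α : AlgebraicClosure ℚ) ^ p = _
    rw [← map_pow, h]
  rw [kummerFun, muInc_muLog hw, Units.val_div_eq_div_val, div_mul_cancel₀ _ α.ne_zero]
  rfl

theorem kummerFun_mul {α : (AlgebraicClosure ℚ)ˣ} {u v : GQ} (hμ : cycloChar p u = 1)
    (hu : u ((α : AlgebraicClosure ℚ) ^ p) = (α : AlgebraicClosure ℚ) ^ p)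
    (hv : v ((α : AlgebraicClosure ℚ) ^ p) = (α : AlgebraicClosure ℚ) ^ p) :
    (kummerFun α (u * v) : ZMod p) = kummerFun α v + kummerFun α u := by
  apply muInc_injective
  apply Units.ext
  apply mul_right_cancel₀ α.ne_zero
  rw [muInc_kummerFun (by rw [AlgEquiv.mul_apply, hv, hu]), muInc_add, Units.val_mul, mul_assoc,
    muInc_kummerFun hu, AlgEquiv.mul_apply, ← muInc_kummerFun hv, map_mul,
    gal_muInc_of_eq_one hμ]

theorem kummerFun_eq_zero_iff {α : (AlgebraicClosure ℚ)ˣ} {u : GQ}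
    (h : u ((α : AlgebraicClosure ℚ) ^ p) = (α : AlgebraicClosure ℚ) ^ p) :
    (kummerFun α u : ZMod p) = 0 ↔ u α = α := by
  constructor
  · intro hz
    rw [← muInc_kummerFun h, hz, muInc_zero, Units.val_one, one_mul]
  · intro hα
    apply muInc_injective
    apply Units.ext
    apply mul_right_cancel₀ α.ne_zero
    rw [muInc_kummerFun h, hα, muInc_zero, Units.val_one, one_mul]

/-- A root of unity congruent to `1` modulo a place over `q ≠ p` is `1`. -/
theorem muInc_eq_zero_of_sub_mem {A : ValuationSubring (AlgebraicClosure ℚ)} {q : Nat.Primes}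
    (hA : A.LiesOverPrime (q : ℕ)) (hqp : (q : ℕ) ≠ p) {i : ZMod p}
    (h : (muInc p i : AlgebraicClosure ℚ) - 1 ∈ A.nonunits) : i = 0 := by
  by_contra hi
  set w := (muInc p i : AlgebraicClosure ℚ)
  have hw1 : w ≠ 1 := fun e => hi (muInc_injective (Units.ext (by rw [muInc_zero]; exact e)))
  have hwp : w ^ p = 1 := by
    rw [← Units.val_pow_eq_pow_val, muInc_pow_eq_one, Units.val_one]
  have hgeom : ∑ j ∈ Finset.range p, w ^ j = 0 := by
    have := geom_sum_mul w p
    rw [hwp, sub_self, mul_eq_zero, sub_eq_zero] at this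
    exact this.resolve_right hw1
  have hwint : IsIntegral ℤ w := by
    refine IsIntegral.of_pow (Fact.out : p.Prime).pos ?_
    rw [hwp]; exact isIntegral_one
  have hwA : w ∈ A := Fermat.Agent.Galois.place_mem_of_isIntegral A hwint
  have hterm : ∀ j, w ^ j - 1 ∈ A.nonunits := by
    intro j
    induction j with
    | zero => rw [pow_zero, sub_self]; exact zero_mem _
    | succ j ih =>
      have h2 : w * (w ^ j - 1) ∈ A.nonunits := by
        rw [A.mem_nonunits_iff] at ih ⊢
        rw [map_mul]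
        exact (mul_le_of_le_one_left' ((A.valuation_le_one_iff _).2 hwA)).trans_lt ih
      have := add_mem h2 h
      convert this using 1
      ring
  have hp : (p : AlgebraicClosure ℚ) ∈ A.nonunits := by
    have := neg_mem (sum_mem (fun j (_ : j ∈ Finset.range p) => hterm j))
    rwa [Finset.sum_sub_distrib, hgeom, zero_sub, neg_neg, Finset.sum_const, Finset.card_range,
      nsmul_one] at this
  exact hqp ((Nat.prime_dvd_prime_iff_eq q.2 Fact.out).1
    ((Fermat.Agent.Galois.place_natCast_mem_nonunits_iff hA q.2 p).1 hp))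

/-- A `p`-th root of an element with divisor divisible by `p` away from `S` generates an extension
unramified outside `S`. -/
theorem kummer_inertia_fix (hpS : pPrime p ∈ S)
    (hU : IsLevelSubgroup (Levels.unr S) (MonoidHom.id GQ) U)
    [NumberField (IntermediateField.fixedField U)]
    (x : (IntermediateField.fixedField U)ˣ) {α : (AlgebraicClosure ℚ)ˣ}
    (hα : (α : AlgebraicClosure ℚ) ^ p = ((x : IntermediateField.fixedField U) : AlgebraicClosure ℚ))
    {q : Nat.Primes} (hq : q ∉ S) {A : ValuationSubring (AlgebraicClosure ℚ)}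
    (hA : A.LiesOverPrime (q : ℕ))
    (hdiv : ∀ g : GQ, (p : ℤ) ∣ ordP (primeAt (IntermediateField.fixedField U) q g) x)
    {s : GQ} (hs : s ∈ A.inertiaSubgroupIn ℚ) : s α = α := by
  haveI := finiteDimensional_fixedField hU.to_all
  have hsU : s ∈ U := hU.inertiaLE hq A hA hs
  have hL : Fermat.Agent.Galois.InertiaLE (q : ℕ)
      (IntermediateField.fixedField U).fixingSubgroup := by
    rw [fixingSubgroup_fixedField_of_level hU.to_all]
    exact hU.inertiaLE hq
  have hqp : (q : ℕ) ≠ p := fun e => hq (by rwa [show q = pPrime p from Subtype.ext e])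
  obtain ⟨σ, rfl⟩ := Fermat.Agent.Galois.exists_smul_eq
    (Fermat.Agent.Galois.padicPlace_liesOverPrime (q : ℕ)) hA q.2
  set g := σ⁻¹ with hg
  have hgσ : σ = g⁻¹ := by rw [hg, inv_inv]
  obtain ⟨c, hc⟩ := hdiv g
  set β := (α : AlgebraicClosure ℚ) * ((q : ℕ) : AlgebraicClosure ℚ) ^ (-c) with hβ
  have hβ0 : β ≠ 0 := mul_ne_zero α.ne_zero (zpow_ne_zero _ (Nat.cast_ne_zero.2 q.2.ne_zero))
  have hβ1 : galNorm q g β = 1 := by
    have h1 : galNorm q g β ^ p = 1 := by
      rw [← galNorm_pow, hβ, mul_pow, hα, galNorm_mul, galNorm_eq_zpow_ordP hL g x, galNorm_pow,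
        galNorm_zpow, galNorm_natCast, hc, ← zpow_natCast, ← zpow_mul, inv_zpow, ← zpow_neg,
        ← zpow_add₀ (Nat.cast_ne_zero.2 q.2.ne_zero)]
      convert zpow_zero _ using 2
      ring
    exact (pow_eq_one_iff_of_nonneg (galNorm_pos q g hβ0).le (Fact.out : p.Prime).ne_zero).1 h1
  have hβA : β ∈ σ • padicPlace (q : ℕ) := by
    rw [Fermat.Agent.Galois.mem_smul_iff_symm, mem_padicPlace_iff_norm]
    exact hβ1.le
  have hsub := Fermat.Agent.Galois.inertia_sub_mem_nonunits hs hβA
  have hsα : (muInc p (kummerFun α s) : AlgebraicClosure ℚ) * α = s α :=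
    muInc_kummerFun (by rw [hα]; exact apply_unitsIncl hsU x)
  have hfix : s β = (muInc p (kummerFun α s) : AlgebraicClosure ℚ) * β := by
    rw [hβ, map_mul, map_zpow₀, map_natCast, ← hsα, mul_assoc]
  rw [hfix, hgσ, mem_nonunits_inv_smul_iff, ← sub_one_mul, galNorm_mul, hβ1, mul_one,
    ← mem_nonunits_inv_smul_iff] at hsub
  have := muInc_eq_zero_of_sub_mem (hgσ ▸ hA) hqp hsub
  exact (kummerFun_eq_zero_iff (by rw [hα]; exact apply_unitsIncl hsU x)).1 this

theorem finiteDimensional_funRep (hU : IsLevelSubgroup Levels.all (MonoidHom.id GQ) U) :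
    FiniteDimensional (ZMod p) (funRep (muRep p) U) := by
  haveI := hU.finite_quotient
  exact inferInstanceAs (FiniteDimensional (ZMod p) (GQ ⧸ U → ZMod p))

theorem isSmoothRep_muRep_of_unr (hpS : pPrime p ∈ S) :
    IsSmoothRep (Levels.unr S) (MonoidHom.id GQ) (muRep p) := by
  intro m
  refine ⟨IntermediateField.adjoin ℚ {(zetaP p : AlgebraicClosure ℚ)}, ⟨?_, fun q hq A hA s hs => ?_⟩,
    fun s hs => ?_⟩
  · exact IntermediateField.adjoin.finiteDimensional
      (AlgebraicClosure.isAlgebraic ℚ |>.isAlgebraic _).isIntegral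
  · rw [IntermediateField.mem_fixingSubgroup_iff]
    intro y hy
    suffices h : IntermediateField.adjoin ℚ {(zetaP p : AlgebraicClosure ℚ)} ≤
        IntermediateField.fixedField (Subgroup.zpowers s) from
      h hy ⟨s, Subgroup.mem_zpowers s⟩
    rw [IntermediateField.adjoin_le_iff, Set.singleton_subset_iff]
    rintro ⟨t, ht⟩
    obtain ⟨n, rfl⟩ := Subgroup.mem_zpowers_iff.1 ht
    have hz : muInc p (1 : ZMod p) = zetaP p := by
      rw [show (1 : ZMod p) = ((1 : ℕ) : ZMod p) from Nat.cast_one.symm, muInc_natCast, pow_one]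
    have hqp : (q : ℕ) ≠ p := fun e => hq (by rwa [show q = pPrime p from Subtype.ext e])
    have hsn : s ^ n ∈ A.inertiaSubgroupIn ℚ := zpow_mem hs n
    have hint : IsIntegral ℤ (zetaP p : AlgebraicClosure ℚ) := by
      refine IsIntegral.of_pow (Fact.out : p.Prime).pos ?_
      rw [← Units.val_pow_eq_pow_val, zetaP_isPrimitiveRoot.pow_eq_one, Units.val_one]
      exact isIntegral_one
    have h1 := Fermat.Agent.Galois.inertia_sub_mem_nonunits hsn
      (Fermat.Agent.Galois.place_mem_of_isIntegral A hint)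
    rw [← hz, gal_muInc, mul_one] at h1
    show (s ^ n) (zetaP p : AlgebraicClosure ℚ) = _
    rw [← hz, gal_muInc, mul_one]
    set i := ((cycloChar p (s ^ n) : (ZMod p)ˣ) : ZMod p)
    have h2 : muInc p i = muInc p (i - 1) * muInc p 1 := by rw [← muInc_add, sub_add_cancel]
    rw [h2, Units.val_mul, ← sub_one_mul] at h1
    have h3 : (muInc p (i - 1) : AlgebraicClosure ℚ) - 1 ∈ A.nonunits := by
      rw [A.mem_nonunits_iff, map_mul] at h1
      have hone : A.valuation (muInc p (1 : ZMod p) : AlgebraicClosure ℚ) = 1 := by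
        have h0 : A.valuation (muInc p (1 : ZMod p) : AlgebraicClosure ℚ) ^ p = 1 := by
          rw [← map_pow, ← Units.val_pow_eq_pow_val, muInc_pow_eq_one, Units.val_one, map_one]
        exact (pow_eq_one_iff_of_nonneg zero_le (Fact.out : p.Prime).ne_zero).1 h0
      rw [hone, mul_one] at h1
      exact h1
    rw [sub_eq_zero.1 (muInc_eq_zero_of_sub_mem hA hqp h3)]
  · have hz : muInc p (1 : ZMod p) = zetaP p := by
      rw [show (1 : ZMod p) = ((1 : ℕ) : ZMod p) from Nat.cast_one.symm, muInc_natCast, pow_one]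
    have hs' : s (zetaP p : AlgebraicClosure ℚ) = zetaP p :=
      (IntermediateField.mem_fixingSubgroup_iff _ _).1 hs _
        (IntermediateField.mem_adjoin_simple_self ℚ _)
    rw [← hz, gal_muInc, mul_one] at hs'
    have h4 : ((cycloChar p s : (ZMod p)ˣ) : ZMod p) = 1 := muInc_injective (Units.ext hs')
    rw [muRep_apply, h4, one_mul]

theorem exists_pow_root (x : (IntermediateField.fixedField U)ˣ) :
    ∃ α : (AlgebraicClosure ℚ)ˣ,
      (α : AlgebraicClosure ℚ) ^ p = ((x : IntermediateField.fixedField U) : AlgebraicClosure ℚ) := by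
  obtain ⟨a, ha⟩ := IsAlgClosed.exists_pow_nat_eq
    ((x : IntermediateField.fixedField U) : AlgebraicClosure ℚ) (Fact.out : p.Prime).pos
  have ha0 : a ≠ 0 := by
    rintro rfl
    rw [zero_pow (Fact.out : p.Prime).ne_zero] at ha
    exact x.ne_zero (Subtype.ext ha.symm)
  exact ⟨Units.mk0 a ha0, ha⟩

/-- The Kummer class of `x` in `H¹(funRep U μ_p)`. -/
theorem exists_kummer_class (hpS : pPrime p ∈ S)
    (hU : IsLevelSubgroup (Levels.unr S) (MonoidHom.id GQ) U)
    (hμ : ∀ g ∈ U, cycloChar p g = 1)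
    [NumberField (IntermediateField.fixedField U)]
    (x : (IntermediateField.fixedField U)ˣ)
    (hdiv : ∀ v ∉ placesOver S (IntermediateField.fixedField U), (p : ℤ) ∣ ordP v x) :
    ∃ (α : (AlgebraicClosure ℚ)ˣ) (w : cocycles₁ (funRep (muRep p) U)),
      (α : AlgebraicClosure ℚ) ^ p
          = ((x : IntermediateField.fixedField U) : AlgebraicClosure ℚ) ∧
        IsConst₁ (Levels.unr S) (MonoidHom.id GQ) w ∧
        ∀ u : U, w u (QuotientGroup.mk 1) = kummerFun α u := by
  obtain ⟨α, hα⟩ := exists_pow_root (p := p) x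
  haveI := finiteDimensional_fixedField hU.to_all
  have hfixα : ∀ u ∈ U, u ((α : AlgebraicClosure ℚ) ^ p) = (α : AlgebraicClosure ℚ) ^ p :=
    fun u hu => by rw [hα]; exact apply_unitsIncl hu x
  let z : U → ZMod p := fun u => kummerFun α u
  have hz : ∀ s t : U, z (s * t) = (muRep p).ρ s (z t) + z s := fun s t => by
    rw [muRep_apply, hμ s s.2, Units.val_one, one_mul]
    exact kummerFun_mul (hμ s s.2) (hfixα s s.2) (hfixα t t.2)
  let F := IntermediateField.fixedField U ⊔
    IntermediateField.adjoin ℚ {(α : AlgebraicClosure ℚ)}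
  haveI : FiniteDimensional ℚ (IntermediateField.adjoin ℚ {(α : AlgebraicClosure ℚ)}) :=
    IntermediateField.adjoin.finiteDimensional
      ((AlgebraicClosure.isAlgebraic ℚ).isAlgebraic _).isIntegral
  have hF : F.IsUnramifiedOutside S := by
    refine ⟨IntermediateField.finiteDimensional_sup _ _, fun q hq A hA s hs => ?_⟩
    have hsU : s ∈ U := hU.inertiaLE hq A hA hs
    rw [IntermediateField.fixingSubgroup_sup]
    refine ⟨by rw [fixingSubgroup_fixedField_of_level hU.to_all]; exact hsU, ?_⟩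
    suffices h : Subgroup.zpowers s ≤
        (IntermediateField.adjoin ℚ {(α : AlgebraicClosure ℚ)}).fixingSubgroup from
      h (Subgroup.mem_zpowers s)
    rw [← IntermediateField.le_iff_le, IntermediateField.adjoin_le_iff, Set.singleton_subset_iff]
    rintro ⟨t, ht⟩
    obtain ⟨n, rfl⟩ := Subgroup.mem_zpowers_iff.1 ht
    exact kummer_inertia_fix hpS hU x hα hq hA
      (fun g => hdiv _ (primeAt_not_mem_placesOver hq g)) (zpow_mem hs n)
  have hzc : IsConst₁ (Levels.unr S) ((MonoidHom.id GQ).comp U.subtype) z := by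
    refine ⟨F, hF, fun g s hs => ?_⟩
    rw [show ((MonoidHom.id GQ).comp U.subtype) s = (s : GQ) from rfl,
      IntermediateField.fixingSubgroup_sup] at hs
    have hsα : (s : GQ) α = α := (IntermediateField.mem_fixingSubgroup_iff _ _).1 hs.2 _
      (IntermediateField.mem_adjoin_simple_self ℚ _)
    show kummerFun α ((g : GQ) * s) = kummerFun α g
    rw [kummerFun_mul (hμ g g.2) (hfixα g g.2) (hfixα s s.2),
      (kummerFun_eq_zero_iff (hfixα s s.2)).2 hsα, zero_add]
  obtain ⟨w, hw, hwc, hwz⟩ := shapiro₁_exists (Levels.hasNormal_unr S) hU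
    (isSmoothRep_muRep_of_unr hpS) z hz hzc
  exact ⟨α, ⟨w, (mem_cocycles₁_iff _).2 hw⟩, hα, hwc, hwz⟩

theorem eq_mul_pow_of_class_eq
    (hμ : ∀ g ∈ U, cycloChar p g = 1)
    {x y : (IntermediateField.fixedField U)ˣ} {α β : (AlgebraicClosure ℚ)ˣ}
    (hα : (α : AlgebraicClosure ℚ) ^ p = ((x : IntermediateField.fixedField U) : AlgebraicClosure ℚ))
    (hβ : (β : AlgebraicClosure ℚ) ^ p = ((y : IntermediateField.fixedField U) : AlgebraicClosure ℚ))
    {w w' : cocycles₁ (funRep (muRep p) U)}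
    (hw : ∀ u : U, w u (QuotientGroup.mk 1) = kummerFun α u)
    (hw' : ∀ u : U, w' u (QuotientGroup.mk 1) = kummerFun β u)
    (h : H1π (funRep (muRep p) U) w = H1π (funRep (muRep p) U) w') :
    ∃ t : (IntermediateField.fixedField U)ˣ, x = y * t ^ p := by
  obtain ⟨f, hf⟩ := (H1π_eq_iff _ _).1 h
  have key : ∀ u : U, (u : GQ) ((α : AlgebraicClosure ℚ) * (β : AlgebraicClosure ℚ)⁻¹)
      = (α : AlgebraicClosure ℚ) * (β : AlgebraicClosure ℚ)⁻¹ := by
    intro u
    have h1 := congrFun (congrFun hf (u : GQ)) (QuotientGroup.mk 1)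
    have e : ((u : GQ)⁻¹ • (QuotientGroup.mk 1 : GQ ⧸ U)) = QuotientGroup.mk 1 := by
      rw [MulAction.Quotient.smul_mk, QuotientGroup.eq]; simp
    rw [d₀₁_hom_apply] at h1
    simp only [Pi.sub_apply] at h1
    change (muRep p).ρ (u : GQ) (f ((u : GQ)⁻¹ • (QuotientGroup.mk 1 : GQ ⧸ U))) - _ = _ at h1
    rw [e, muRep_apply, hμ u u.2, Units.val_one, one_mul, sub_self, hw u, hw' u] at h1
    have hk : (kummerFun α u : ZMod p) = kummerFun β u := sub_eq_zero.1 h1.symm
    have ea := muInc_kummerFun (p := p) (α := α) (u := u)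
      (by rw [hα]; exact apply_unitsIncl u.2 x)
    have eb := muInc_kummerFun (p := p) (α := β) (u := u)
      (by rw [hβ]; exact apply_unitsIncl u.2 y)
    rw [map_mul, map_inv₀, ← ea, ← eb, hk, mul_inv, mul_mul_mul_comm,
      mul_inv_cancel₀ (Units.ne_zero _), one_mul]
  have hne : (⟨_, fun u => key u⟩ : IntermediateField.fixedField U) ≠ 0 := fun h0 =>
    mul_ne_zero α.ne_zero (inv_ne_zero β.ne_zero) (congrArg Subtype.val h0)
  refine ⟨Units.mk0 _ hne, ?_⟩
  apply Units.ext
  apply Subtype.ext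
  rw [Units.val_mul, MulMemClass.coe_mul, Units.val_pow_eq_pow_val, Units.val_mk0,
    SubmonoidClass.coe_pow, mul_pow, hα, inv_pow, hβ, mul_left_comm,
    mul_inv_cancel₀ (fun h0 => y.ne_zero (Subtype.ext h0)), mul_one]

/-- Lower bound for `H¹`: `S`-units mod `p` and the `p`-torsion of the `S`-class group. -/
theorem natCard_H1c_ge (hp2 : p ≠ 2) (hpS : pPrime p ∈ S)
    (hU : IsLevelSubgroup (Levels.unr S) (MonoidHom.id GQ) U)
    (hμ : ∀ g ∈ U, cycloChar p g = 1)
    [NumberField (IntermediateField.fixedField U)] :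
    p ^ ((placesOver S (IntermediateField.fixedField U)).card
        + InfinitePlace.nrComplexPlaces (IntermediateField.fixedField U))
      * Nat.card {c : SClass (placesOver S (IntermediateField.fixedField U)) // p • c = 0}
      ≤ Nat.card (H1c (Levels.unr S) (MonoidHom.id GQ) (funRep (muRep p) U)) := by
  classical
  have hfd := finiteDimensional_funRep (p := p) hU.to_all
  haveI := finite_H1c_unr_proof S (funRep (muRep p) U)
    (isSmoothRep_funRep (Levels.hasNormal_unr S) hU (isSmoothRep_muRep_of_unr hpS))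
  haveI : Finite (H1c (Levels.unr S) (MonoidHom.id GQ) (funRep (muRep p) U)) :=
    Module.finite_of_finite (ZMod p)
  set L := IntermediateField.fixedField U
  set T := placesOver S L
  let E := ((↑T : Set (HeightOneSpectrum (𝓞 L))).unit L)
  obtain ⟨ζ, hζ⟩ : ∃ ζ : L, IsPrimitiveRoot ζ p := by
    have hmem : ((zetaP p : AlgebraicClosure ℚ)) ∈ L := fun u => by
      have hz : muInc p (1 : ZMod p) = zetaP p := by
        rw [show (1 : ZMod p) = ((1 : ℕ) : ZMod p) from Nat.cast_one.symm, muInc_natCast, pow_one]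
      show (u : GQ) (zetaP p : AlgebraicClosure ℚ) = _
      rw [← hz, gal_muInc_of_eq_one (hμ u u.2)]
    exact ⟨⟨_, hmem⟩, IsPrimitiveRoot.of_map_of_injective (f := L.val)
      (IsPrimitiveRoot.coe_units_iff.2 zetaP_isPrimitiveRoot) Subtype.val_injective⟩
  have hidx := supm_index T hp2 hζ
  rw [Subgroup.index] at hidx
  rw [← hidx, ← Nat.card_prod]
  haveI : Finite (↥E ⧸ (powMonoidHom p : ↥E →* ↥E).range) :=
    Nat.finite_of_card_ne_zero (by rw [hidx]; exact pow_ne_zero _ (Fact.out : p.Prime).ne_zero)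
  choose xc hxc using fun c : {c : SClass T // p • c = 0} => exists_divOff_eq_smul T c.2
  let x : (↥E ⧸ (powMonoidHom p : ↥E →* ↥E).range) × {c : SClass T // p • c = 0} → Lˣ :=
    fun ec => (Quotient.out ec.1 : ↥E).1 * xc ec.2
  have hE : ∀ (e : ↥E) (v : HeightOneSpectrum (𝓞 L)), v ∉ T → ordP v e.1 = 0 :=
    fun e v hv => (ordP_eq_zero_iff v e.1).2 (e.2 v hv)
  have hord : ∀ ec (v : OffPrimes T), ordP v.1 (x ec) = (p : ℤ) * ec.2.1.out v := by
    intro ec v
    have h1 : ordP v.1 (xc ec.2) = (p • ec.2.1.out) v := DFunLike.congr_fun (hxc ec.2) v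
    rw [Finsupp.smul_apply, nsmul_eq_mul] at h1
    rw [ordP_mul, hE _ v.1 v.2, zero_add, h1]
  have hdiv : ∀ ec, ∀ v ∉ T, (p : ℤ) ∣ ordP v (x ec) := fun ec v hv => ⟨_, hord ec ⟨v, hv⟩⟩
  choose α w hα hwc hw using fun ec => exists_kummer_class hpS hU hμ (x ec) (hdiv ec)
  refine Nat.card_le_card_of_injective (fun ec => (⟨(H1π _).hom (w ec),
    Submodule.mem_map.2 ⟨w ec, hwc ec, rfl⟩⟩ :
      H1c (Levels.unr S) (MonoidHom.id GQ) (funRep (muRep p) U))) fun ec ec' h => ?_
  obtain ⟨t, ht⟩ := eq_mul_pow_of_class_eq hμ (hα ec) (hα ec') (hw ec) (hw ec')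
    (congrArg Subtype.val h)
  have hpow : ∀ (v : HeightOneSpectrum (𝓞 L)) (n : ℕ), ordP v (t ^ n) = n * ordP v t := by
    intro v n
    induction n with
    | zero => simp [(ordP_eq_zero_iff v (1 : Lˣ)).2]
    | succ n ih => rw [pow_succ, ordP_mul, ih]; push_cast; ring
  have hout : ec.2.1.out = ec'.2.1.out + divOff T (Additive.ofMul t) := by
    ext v
    have h1 : ordP v.1 (x ec) = ordP v.1 (x ec' * t ^ p) := congrArg (ordP v.1) ht
    rw [hord, ordP_mul, hord, hpow, ← mul_add] at h1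
    exact mul_left_cancel₀ (Nat.cast_ne_zero.2 (Fact.out : p.Prime).ne_zero) h1
  have hc : ec.2 = ec'.2 := by
    apply Subtype.ext
    rw [← ec.2.1.out_eq', ← ec'.2.1.out_eq', QuotientAddGroup.eq, hout]
    refine ⟨-Additive.ofMul t, ?_⟩
    rw [map_neg]
    abel
  refine Prod.ext ?_ hc
  simp only [x, hc] at ht
  rw [mul_right_comm] at ht
  have ht' := mul_right_cancel ht
  rw [← ec.1.out_eq', ← ec'.1.out_eq', QuotientGroup.eq]
  have htE : t ∈ E := fun v hv => by
    have h1 := congrArg (ordP v) ht'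
    rw [ordP_mul, hE _ v hv, hE _ v hv, hpow, zero_add] at h1
    refine (ordP_eq_zero_iff v t).1 ?_
    exact (mul_eq_zero.1 h1.symm).resolve_left (Nat.cast_ne_zero.2 (Fact.out : p.Prime).ne_zero)
  refine ⟨⟨t, htE⟩⁻¹, Subtype.ext ?_⟩
  show (t⁻¹) ^ p = (Quotient.out ec.1 : ↥E).1⁻¹ * (Quotient.out ec'.1 : ↥E).1
  rw [ht', mul_inv, mul_comm _ (t ^ p)⁻¹, mul_assoc, inv_mul_cancel, mul_one, inv_pow]

end Fermat.Agent.CFT
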