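import Fermat.Agent.CFT.MuInc
import Fermat.Agent.CFT.PrimeBridge
import Fermat.Agent.TW.LocalKummer

/-!
# Hilbert 90 on a subgroup of the absolute Galois group
-/

set_option autoImplicit false
set_option linter.style.haveILetI false

open CategoryTheory groupCohomology ExtCitation

noncomputable section

namespace Fermat.Agent.CFT

/-- The action of an element of the Galois group on `ℚ̄ˣ`. -/
def galUnits (g : GQ) : (AlgebraicClosure ℚ)ˣ →* (AlgebraicClosure ℚ)ˣ :=
  Units.map g.toRingEquiv.toRingHom.toMonoidHom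

@[simp]
theorem coe_galUnits (g : GQ) (a : (AlgebraicClosure ℚ)ˣ) :
    (galUnits g a : AlgebraicClosure ℚ) = g a := rfl

theorem galUnits_mul (g h : GQ) (a : (AlgebraicClosure ℚ)ˣ) :
    galUnits (g * h) a = galUnits g (galUnits h a) := Units.ext rfl

variable {U : Subgroup GQ}

/-- Hilbert 90 for level-constant cocycles on a level subgroup. -/
theorem exists_galUnits_div_of_cocycle (hU : IsLevelSubgroup Levels.all (MonoidHom.id GQ) U)
    (z : U → (AlgebraicClosure ℚ)ˣ) (hz : ∀ s t, z (s * t) = galUnits s (z t) * z s)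
    (hzc : IsConst₁ Levels.all U.subtype z) :
    ∃ a : (AlgebraicClosure ℚ)ˣ, ∀ s : U, z s = galUnits s a / a := by
  obtain ⟨F, hF, h⟩ := hzc
  haveI : FiniteDimensional ℚ F := hF
  set K := IntermediateField.fixedField U
  have hK : K.fixingSubgroup = U := fixingSubgroup_fixedField_of_level hU
  let e : (AlgebraicClosure ℚ ≃ₐ[K] AlgebraicClosure ℚ) →* U :=
    MonoidHom.mk' (fun σ => ⟨σ.restrictScalars ℚ, hK.le (fun x => σ.commutes x)⟩)
      fun a b => rfl
  haveI : Algebra.IsAlgebraic K (AlgebraicClosure ℚ) := Algebra.IsAlgebraic.tower_top (K := ℚ) _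
  haveI : IsAlgClosure K (AlgebraicClosure ℚ) := ⟨inferInstance, inferInstance⟩
  haveI : IsGalois K (AlgebraicClosure ℚ) := inferInstance
  let E : IntermediateField K (AlgebraicClosure ℚ) :=
    IntermediateField.adjoin K (F : Set (AlgebraicClosure ℚ))
  haveI : FiniteDimensional K E := by
    obtain ⟨s, hs⟩ := IntermediateField.essFiniteType_iff.1
      (Algebra.EssFiniteType.of_finiteType (R := ℚ) (S := F))
    have hFE : E = IntermediateField.adjoin K (s : Set (AlgebraicClosure ℚ)) := by
      refine le_antisymm (IntermediateField.adjoin_le_iff.2 fun x hx => ?_)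
        (IntermediateField.adjoin.mono K _ _ (hs ▸ IntermediateField.subset_adjoin ℚ _))
      have hx' : x ∈ IntermediateField.adjoin ℚ (s : Set (AlgebraicClosure ℚ)) := by rw [hs]; exact hx
      have hle : IntermediateField.adjoin ℚ (s : Set (AlgebraicClosure ℚ)) ≤
          (IntermediateField.adjoin K (s : Set (AlgebraicClosure ℚ))).restrictScalars ℚ :=
        IntermediateField.adjoin_le_iff.2 (IntermediateField.subset_adjoin K _)
      exact hle hx'
    rw [hFE]
    exact IntermediateField.finiteDimensional_adjoin fun x _ => Algebra.IsIntegral.isIntegral x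
  obtain ⟨b, hb0, hb⟩ := Fermat.Agent.TW.exists_eq_div_of_levelConstant_cocycle
    (fun σ => (z (e σ) : AlgebraicClosure ℚ)) (fun σ => Units.ne_zero _)
    (fun σ τ => by rw [map_mul, hz, Units.val_mul]; rfl) E
    (fun g s hs => by
      rw [map_mul, h (e g) (e s) ((IntermediateField.mem_fixingSubgroup_iff _ _).2 fun x hx =>
        (IntermediateField.mem_fixingSubgroup_iff _ _).1 hs x
          (IntermediateField.subset_adjoin K _ hx))])
  refine ⟨Units.mk0 b hb0, fun s => ?_⟩
  let σ : AlgebraicClosure ℚ ≃ₐ[K] AlgebraicClosure ℚ :=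
    { (s : GQ).toRingEquiv with commutes' := fun x => x.2 s }
  have hes : e σ = s := Subtype.ext (AlgEquiv.ext fun x => rfl)
  have h1 := hb σ
  rw [hes] at h1
  apply Units.ext
  rw [Units.val_div_eq_div_val, coe_galUnits, Units.val_mk0]
  exact h1

variable {p : ℕ} [Fact p.Prime]

theorem galUnits_muInc {g : GQ} (hg : cycloChar p g = 1) (i : ZMod p) :
    galUnits g (muInc p i) = muInc p i :=
  Units.ext (gal_muInc_of_eq_one hg i)

/-- A `μ_p`-cocycle which dies in `ℚ̄ˣ` is the coboundary of a level-constant cochain. -/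
theorem exists_mu_cochain (hU : IsLevelSubgroup Levels.all (MonoidHom.id GQ) U)
    (hμ : ∀ g ∈ U, cycloChar p g = 1) (c : U × U → ZMod p) (f : U → (AlgebraicClosure ℚ)ˣ)
    (hfc : IsConst₁ Levels.all U.subtype f)
    (hf : ∀ s t, muInc p (c (s, t)) = galUnits s (f t) / f (s * t) * f s) :
    ∃ μ : U → ZMod p, IsConst₁ Levels.all U.subtype μ ∧
      ∀ s t, c (s, t) = μ t - μ (s * t) + μ s := by
  obtain ⟨a, ha⟩ := exists_galUnits_div_of_cocycle hU (fun s => f s ^ p) (fun s t => by
    have h := congrArg (· ^ p) (hf s t)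
    simp only [muInc_pow_eq_one] at h
    rw [map_pow, ← mul_pow]
    rw [div_mul_eq_mul_div, div_pow, eq_comm, div_eq_one] at h
    exact h.symm) (hfc.comp (· ^ p))
  obtain ⟨γ₀, hγ⟩ := IsAlgClosed.exists_pow_nat_eq (a : AlgebraicClosure ℚ) (Fact.out : p.Prime).pos
  let γ : (AlgebraicClosure ℚ)ˣ := Units.mk0 γ₀ (by
    rintro rfl
    rw [zero_pow (Fact.out : p.Prime).ne_zero] at hγ
    exact a.ne_zero hγ.symm)
  have hγa : γ ^ p = a := Units.ext hγ
  let f' : U → (AlgebraicClosure ℚ)ˣ := fun s => f s * γ / galUnits s γ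
  have hp1 : ∀ s, f' s ^ p = 1 := fun s => by
    simp only [f', div_pow, mul_pow, ← map_pow, hγa, ha s]
    rw [div_mul_cancel, div_self']
  refine ⟨fun s => muLog (f' s), ?_, fun s t => ?_⟩
  · obtain ⟨F, hF, h⟩ := hfc
    haveI : FiniteDimensional ℚ F := hF
    haveI : FiniteDimensional ℚ (IntermediateField.adjoin ℚ {γ₀}) :=
      IntermediateField.adjoin.finiteDimensional
        ((AlgebraicClosure.isAlgebraic ℚ).isAlgebraic γ₀).isIntegral
    refine ⟨F ⊔ IntermediateField.adjoin ℚ {γ₀},
      (inferInstance : FiniteDimensional ℚ ↥(F ⊔ IntermediateField.adjoin ℚ {γ₀})),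
      fun g s hs => ?_⟩
    rw [IntermediateField.fixingSubgroup_sup] at hs
    have h1 : galUnits (s : GQ) γ = γ := Units.ext
      ((IntermediateField.mem_fixingSubgroup_iff _ _).1 hs.2 _
        (IntermediateField.mem_adjoin_simple_self ℚ _))
    simp only [f', h g s hs.1, Subgroup.coe_mul, galUnits_mul, h1]
  · apply muInc_injective
    have hfix : galUnits (s : GQ) (f' t) = f' t := by
      rw [← muInc_muLog (hp1 t), galUnits_muInc (hμ s s.2)]
    rw [muInc_add, muInc_sub, muInc_muLog (hp1 _), muInc_muLog (hp1 _), muInc_muLog (hp1 _), hf,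
      ← hfix]
    simp only [f', map_div, map_mul, Subgroup.coe_mul, galUnits_mul]
    apply Additive.ofMul.injective
    simp only [ofMul_mul, ofMul_div]
    abel

end Fermat.Agent.CFT
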