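import Fermat.Agent.CFT.GlobalPerm.Kummer
import Fermat.Agent.CFT.GlobalPerm.H90
import Fermat.Agent.CFT.GlobalPerm.Localize
import Fermat.Agent.CFT.Interface.Reciprocity
import Fermat.Agent.CFT.Interface.GlobalFields

/-!
# Locally trivial classes of a permutation module embed into the `S`-class group modulo `p`
-/

set_option autoImplicit false
set_option linter.style.haveILetI false

open CategoryTheory groupCohomology ExtCitation Module NumberField IsDedekindDomain
open scoped Pointwise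

noncomputable section

namespace Fermat.Agent.CFT

variable {p : ℕ} [Fact p.Prime] {S : Finset Nat.Primes} {U : Subgroup GQ}

theorem mem_fixingSubgroup_adjoin_singleton {s : GQ} {x : AlgebraicClosure ℚ} (hx : s x = x) :
    s ∈ (IntermediateField.adjoin ℚ {x}).fixingSubgroup := by
  suffices h : Subgroup.zpowers s ≤ (IntermediateField.adjoin ℚ {x}).fixingSubgroup from
    h (Subgroup.mem_zpowers s)
  rw [← IntermediateField.le_iff_le, IntermediateField.adjoin_le_iff, Set.singleton_subset_iff]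
  rintro ⟨t, ht⟩
  have hle : Subgroup.zpowers s ≤ MulAction.stabilizer GQ x := Subgroup.zpowers_le.2 hx
  exact hle ht

/-- A root of unity acting as inertia on an element whose absolute value is a power of `q` is
trivial. -/
theorem inertia_fix_of_galNorm (hpS : pPrime p ∈ S) {q : Nat.Primes} (hq : q ∉ S)
    {A : ValuationSubring (AlgebraicClosure ℚ)} (hA : A.LiesOverPrime (q : ℕ))
    {α : (AlgebraicClosure ℚ)ˣ} {k : GQ → ℤ}
    (hk : ∀ g, galNorm q g α = ((q : ℕ) : ℝ) ^ k g)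
    {s : GQ} (hs : s ∈ A.inertiaSubgroupIn ℚ) {i : ZMod p}
    (hi : galUnits s α = muInc p i * α) : i = 0 := by
  have hqp : (q : ℕ) ≠ p := fun e => hq (by rwa [show q = pPrime p from Subtype.ext e])
  obtain ⟨σ, rfl⟩ := Fermat.Agent.Galois.exists_smul_eq
    (Fermat.Agent.Galois.padicPlace_liesOverPrime (q : ℕ)) hA q.2
  set g := σ⁻¹ with hg
  have hgσ : σ = g⁻¹ := by rw [hg, inv_inv]
  set β := (α : AlgebraicClosure ℚ) * ((q : ℕ) : AlgebraicClosure ℚ) ^ k g with hβ
  have hβ1 : galNorm q g β = 1 := by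
    rw [hβ, galNorm_mul, galNorm_zpow, galNorm_natCast, hk, inv_zpow,
      mul_inv_cancel₀ (zpow_ne_zero _ (Nat.cast_ne_zero.2 q.2.ne_zero))]
  have hβA : β ∈ σ • padicPlace (q : ℕ) := by
    rw [Fermat.Agent.Galois.mem_smul_iff_symm, mem_padicPlace_iff_norm]
    exact hβ1.le
  have hsub := Fermat.Agent.Galois.inertia_sub_mem_nonunits hs hβA
  have hsα : s α = (muInc p i : AlgebraicClosure ℚ) * α := by
    have := congrArg Units.val hi
    rwa [coe_galUnits, Units.val_mul] at this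
  have hfix : s β = (muInc p i : AlgebraicClosure ℚ) * β := by
    rw [hβ, map_mul, map_zpow₀, map_natCast, hsα, mul_assoc]
  rw [hfix, hgσ, mem_nonunits_inv_smul_iff, ← sub_one_mul, galNorm_mul, hβ1, mul_one,
    ← mem_nonunits_inv_smul_iff] at hsub
  exact muInc_eq_zero_of_sub_mem (hgσ ▸ hA) hqp hsub

/-- The base value of a class on the level subgroup. -/
def baseVal (C : GQ × GQ → (funRep (muRep p) U)) : ZMod p := C (1, 1) (QuotientGroup.mk 1)

/-- A primitive of the restricted class together with the root it defines on a normal level. -/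
def ClassData (S : Finset Nat.Primes) (C : GQ × GQ → (funRep (muRep p) U)) (μ : U → ZMod p)
    (β : (AlgebraicClosure ℚ)ˣ) : Prop :=
  IsConst₁ Levels.all U.subtype μ ∧
    (∀ s t : U, C ((s : GQ), (t : GQ)) (QuotientGroup.mk 1) = μ t - μ (s * t) + μ s) ∧
    ∃ F₀ : IntermediateField ℚ (AlgebraicClosure ℚ), F₀.IsUnramifiedOutside S ∧ Normal ℚ F₀ ∧
      (∀ g g' s s', s ∈ F₀.fixingSubgroup → s' ∈ F₀.fixingSubgroup →
        C (g * s, g' * s') = C (g, g')) ∧
      ∀ s ∈ F₀.fixingSubgroup, ∃ hs : s ∈ U,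
        galUnits s β = muInc p (μ ⟨s, hs⟩ - baseVal C) * β

theorem isLevelHom_subtype_all (U : Subgroup GQ) :
    IsLevelHom (Levels.unr S) (MonoidHom.id GQ) Levels.all U.subtype U.subtype :=
  fun F hF => ⟨F, hF.1, fun _ h => h⟩

theorem eval_one_equivariant (h : U) (f : funRep (muRep p) U) :
    LinearMap.proj (R := ZMod p) (φ := fun _ => ZMod p) (QuotientGroup.mk (1 : GQ) : GQ ⧸ U)
        ((funRep (muRep p) U).ρ (h : GQ) f) =
      (muSub p U).ρ h (LinearMap.proj (R := ZMod p) (φ := fun _ => ZMod p)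
        (QuotientGroup.mk (1 : GQ) : GQ ⧸ U) f) := by
  have e : ((h : GQ)⁻¹ • (QuotientGroup.mk (1 : GQ) : GQ ⧸ U)) = QuotientGroup.mk (1 : GQ) := by
    rw [MulAction.Quotient.smul_mk, QuotientGroup.eq]; simp
  change (muRep p).ρ (h : GQ) (f ((h : GQ)⁻¹ • (QuotientGroup.mk (1 : GQ)))) = _
  rw [e]
  rfl

theorem exists_classData (hp2 : p ≠ 2)
    (hU : IsLevelSubgroup (Levels.unr S) (MonoidHom.id GQ) U)
    (hμ : ∀ g ∈ U, cycloChar p g = 1)
    (C : ↥(Z2 (Levels.unr S) (MonoidHom.id GQ) (funRep (muRep p) U)))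
    (hloc : ∀ q ∈ S, locS q (funRep (muRep p) U) (H2cπ _ _ _ C) = 0) :
    ∃ μ β, ClassData S C.1 μ β := by
  let c : ↥(Z2 (Levels.unr S) U.subtype (muSub p U)) :=
    mapZ2 (M := funRep (muRep p) U) (N := muSub p U) U.subtype (isLevelHom_of_eq _ fun _ => rfl)
      (LinearMap.proj (QuotientGroup.mk (1 : GQ))) eval_one_equivariant C
  let c' : ↥(Z2 Levels.all U.subtype (muSub p U)) :=
    mapZ2 (M := funRep (muRep p) U) (N := muSub p U) U.subtype (isLevelHom_subtype_all U)
      (LinearMap.proj (QuotientGroup.mk (1 : GQ))) eval_one_equivariant C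
  obtain ⟨f, hfc, hf⟩ := hasse_mu hp2 hU.to_all hμ c' fun q x => by
    by_cases hq : q ∈ S
    · exact locPlace_eq_zero_of_locS C q (hloc q hq) c' (fun s t => rfl) x
    · exact locPlace_eq_zero_of_not_mem hp2 S hq hU c c' rfl x
  obtain ⟨μ, hμc, hμd⟩ := exists_mu_cochain hU.to_all hμ
    (fun st => C.1 ((st.1 : GQ), (st.2 : GQ)) (QuotientGroup.mk 1)) f hfc fun s t => by
      apply Units.ext
      rw [Units.val_mul, Units.val_div_eq_div_val, coe_galUnits]
      exact hf s t
  obtain ⟨F₁, hF₁, h₁⟩ := hU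
  obtain ⟨F₂, hF₂, h₂⟩ := C.2.2
  obtain ⟨F, hF, hN, hle₁, hle₂⟩ := Levels.exists_normal₂ (Levels.normalBasis_unr S)
    (F₁ := F₁) (F₂ := F₂) hF₁ hF₂
  have hNU : F.fixingSubgroup ≤ U := fun s hs =>
    h₁ s (IntermediateField.fixingSubgroup_antitone hle₁ hs)
  have hconst : ∀ g g' s s', s ∈ F.fixingSubgroup → s' ∈ F.fixingSubgroup →
      C.1 (g * s, g' * s') = C.1 (g, g') := fun g g' s s' hs hs' =>
    h₂ g g' s s' (IntermediateField.fixingSubgroup_antitone hle₂ hs)
      (IntermediateField.fixingSubgroup_antitone hle₂ hs')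
  let z : F.fixingSubgroup → (AlgebraicClosure ℚ)ˣ := fun s =>
    muInc p (μ ⟨s, hNU s.2⟩ - baseVal C.1)
  obtain ⟨β, hβ⟩ := exists_galUnits_div_of_cocycle (U := F.fixingSubgroup)
    ⟨F, hF.1, fun s hs => hs⟩ z (fun s t => by
      simp only [z]
      rw [galUnits_muInc (hμ _ (hNU s.2)), ← muInc_add]
      congr 1
      have h := hμd ⟨s, hNU s.2⟩ ⟨t, hNU t.2⟩
      have hc := hconst 1 1 s t s.2 t.2
      rw [one_mul, one_mul] at hc
      simp only [hc] at h
      rw [show (⟨((s * t : F.fixingSubgroup) : GQ), hNU (s * t).2⟩ : U) =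
        ⟨s, hNU s.2⟩ * ⟨t, hNU t.2⟩ from rfl, baseVal, h]
      abel) (by
      obtain ⟨F₃, hF₃, h₃⟩ := hμc
      refine ⟨F₃, hF₃, fun g s hs => ?_⟩
      have := h₃ ⟨g, hNU g.2⟩ ⟨s, hNU s.2⟩ hs
      exact congrArg (fun m => muInc p (m - baseVal C.1)) this)
  refine ⟨μ, β, hμc, hμd, F, hF, hN, hconst, fun s hs => ⟨hNU hs, ?_⟩⟩
  have := hβ ⟨s, hs⟩
  rw [eq_div_iff_mul_eq'] at this
  exact this.symm

theorem ClassData.sub {C C' : GQ × GQ → (funRep (muRep p) U)} {μ μ' : U → ZMod p}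
    {β β' : (AlgebraicClosure ℚ)ˣ} (h : ClassData S C μ β) (h' : ClassData S C' μ' β') :
    ClassData S (C - C') (fun s => μ s - μ' s) (β / β') := by
  obtain ⟨hc, hd, F, hF, hN, hC, hr⟩ := h
  obtain ⟨hc', hd', F', hF', hN', hC', hr'⟩ := h'
  obtain ⟨F₀, hF₀, hN₀, hle, hle'⟩ := Levels.exists_normal₂ (Levels.normalBasis_unr S)
    (F₁ := F) (F₂ := F') hF hF'
  refine ⟨(hc.prodMk hc').comp fun x => x.1 - x.2, fun s t => ?_, F₀, hF₀, hN₀,
    fun g g' s s' hs hs' => ?_, fun s hs => ?_⟩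
  · simp only [Pi.sub_apply, hd, hd']
    abel
  · simp only [Pi.sub_apply]
    rw [hC g g' s s' (IntermediateField.fixingSubgroup_antitone hle hs)
      (IntermediateField.fixingSubgroup_antitone hle hs'),
      hC' g g' s s' (IntermediateField.fixingSubgroup_antitone hle' hs)
      (IntermediateField.fixingSubgroup_antitone hle' hs')]
  · obtain ⟨hsU, e⟩ := hr s (IntermediateField.fixingSubgroup_antitone hle hs)
    obtain ⟨_, e'⟩ := hr' s (IntermediateField.fixingSubgroup_antitone hle' hs)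
    refine ⟨hsU, ?_⟩
    have hb : μ ⟨s, hsU⟩ - μ' ⟨s, hsU⟩ - baseVal (C - C') =
        (μ ⟨s, hsU⟩ - baseVal C) - (μ' ⟨s, hsU⟩ - baseVal C') := by
      simp only [baseVal, Pi.sub_apply]
      abel
    rw [map_div, e, e', hb, mul_div_mul_comm, ← muInc_sub]

theorem cocycle_left_one {C : GQ × GQ → (funRep (muRep p) U)}
    (hC : C ∈ cocycles₂ (funRep (muRep p) U)) (g : GQ) : C (1, g) = C (1, 1) := by
  have h := (mem_cocycles₂_iff C).1 hC 1 1 g
  rw [map_one, Module.End.one_apply, one_mul, one_mul] at h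
  exact (add_left_cancel h).symm

theorem cocycle_right_one {C : GQ × GQ → (funRep (muRep p) U)}
    (hC : C ∈ cocycles₂ (funRep (muRep p) U)) (hμ : ∀ g ∈ U, cycloChar p g = 1) {g : GQ}
    (hg : g ∈ U) : C (g, 1) (QuotientGroup.mk 1) = baseVal C := by
  have h := (mem_cocycles₂_iff C).1 hC g 1 1
  rw [mul_one, mul_one] at h
  rw [add_right_cancel h, funRep_ρ_apply, muRep_apply, hμ g hg, Units.val_one, one_mul, baseVal]
  congr 1
  rw [MulAction.Quotient.smul_mk, QuotientGroup.eq]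
  simpa using hg

/-- The root of a datum moves, under the level subgroup, by elements of its normal level. -/
theorem ClassData.exists_level {C : GQ × GQ → (funRep (muRep p) U)} {μ : U → ZMod p}
    {β : (AlgebraicClosure ℚ)ˣ} (h : ClassData S C μ β)
    (hC : C ∈ cocycles₂ (funRep (muRep p) U)) (hμ : ∀ g ∈ U, cycloChar p g = 1) :
    ∃ F₀ : IntermediateField ℚ (AlgebraicClosure ℚ), F₀.IsUnramifiedOutside S ∧
      (β : AlgebraicClosure ℚ) ^ p ∈ F₀ ∧
      ∀ g ∈ U, ((galUnits g β / β : (AlgebraicClosure ℚ)ˣ) : AlgebraicClosure ℚ) ∈ F₀ := by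
  obtain ⟨-, hd, F, hF, hN, hcst, hr⟩ := h
  refine ⟨F, hF, ?_, fun g hg => ?_⟩
  · rw [← InfiniteGalois.fixedField_fixingSubgroup F, IntermediateField.mem_fixedField_iff]
    intro s hs
    obtain ⟨hsU, e⟩ := hr s hs
    have := congrArg (fun u : (AlgebraicClosure ℚ)ˣ => (u : AlgebraicClosure ℚ) ^ p) e
    rw [Units.val_mul, mul_pow, ← Units.val_pow_eq_pow_val (muInc p _), muInc_pow_eq_one,
      Units.val_one, one_mul, coe_galUnits] at this
    rw [map_pow, this]
  · rw [← InfiniteGalois.fixedField_fixingSubgroup F, IntermediateField.mem_fixedField_iff]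
    intro s hs
    suffices hh : galUnits s (galUnits g β / β) = galUnits g β / β from congrArg Units.val hh
    have hσ : g⁻¹ * s * g ∈ F.fixingSubgroup := conj_mem_level (r := MonoidHom.id GQ) hN hs g
    obtain ⟨hsU, e⟩ := hr s hs
    obtain ⟨hσU, e'⟩ := hr _ hσ
    have h1 := hd ⟨g, hg⟩ ⟨_, hσU⟩
    have h2 := hd ⟨s, hsU⟩ ⟨g, hg⟩
    have hp : (⟨g, hg⟩ : U) * ⟨_, hσU⟩ = ⟨s, hsU⟩ * ⟨g, hg⟩ := Subtype.ext (by simp; group)
    have hg1 : C (g, g⁻¹ * s * g) (QuotientGroup.mk 1) = baseVal C := by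
      have := hcst g 1 1 (g⁻¹ * s * g) (one_mem _) hσ
      rw [mul_one, one_mul] at this
      rw [this, cocycle_right_one hC hμ hg]
    have hs1 : C (s, g) (QuotientGroup.mk 1) = baseVal C := by
      have := hcst 1 g s 1 hs (one_mem _)
      rw [mul_one, one_mul] at this
      rw [this, cocycle_left_one hC]
      rfl
    rw [hg1, hp] at h1
    rw [hs1] at h2
    have hμeq : μ ⟨_, hσU⟩ = μ ⟨s, hsU⟩ := by linear_combination h2 - h1
    rw [hμeq] at e'
    rw [map_div, ← galUnits_mul, show s * g = g * (g⁻¹ * s * g) by group, galUnits_mul, e', e,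
      map_mul, galUnits_muInc (hμ g hg), mul_div_mul_left_eq_div]

theorem ClassData.exists_exponent {C : GQ × GQ → (funRep (muRep p) U)} {μ : U → ZMod p}
    {β : (AlgebraicClosure ℚ)ˣ} (h : ClassData S C μ β)
    (hC : C ∈ cocycles₂ (funRep (muRep p) U)) (hμ : ∀ g ∈ U, cycloChar p g = 1)
    {q : Nat.Primes} (hq : q ∉ S) (g : GQ) {u : GQ} (hu : u ∈ U) :
    ∃ j : ℤ, galNorm q g (u (β : AlgebraicClosure ℚ)) =
      ((q : ℕ) : ℝ) ^ j * galNorm q g β := by
  obtain ⟨F, hF, -, hη⟩ := h.exists_level hC hμ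
  haveI := hF.1
  obtain ⟨j, hj⟩ := exists_galNorm_eq_zpow (F := F) (fun A hA s hs => hF.2 q hq A hA hs) g
    (hη u hu) (Units.ne_zero _)
  refine ⟨j, ?_⟩
  rw [← hj, ← galNorm_mul, ← Units.val_mul, div_mul_cancel, coe_galUnits]

theorem ClassData.exists_divisor {C : GQ × GQ → (funRep (muRep p) U)} {μ : U → ZMod p}
    {β : (AlgebraicClosure ℚ)ˣ} (h : ClassData S C μ β)
    (hC : C ∈ cocycles₂ (funRep (muRep p) U)) (hμ : ∀ g ∈ U, cycloChar p g = 1)
    (hU : IsLevelSubgroup (Levels.unr S) (MonoidHom.id GQ) U)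
    [NumberField (IntermediateField.fixedField U)]
    (qv : OffPrimes (placesOver S (IntermediateField.fixedField U)) → Nat.Primes)
    (gv : OffPrimes (placesOver S (IntermediateField.fixedField U)) → GQ)
    (hqv : ∀ v, qv v ∉ S)
    (hgv : ∀ v, primeAt (IntermediateField.fixedField U) (qv v) (gv v) = v.1) :
    ∃ D : OffPrimes (placesOver S (IntermediateField.fixedField U)) →₀ ℤ,
      ∀ v, galNorm (qv v) (gv v) β ^ p = ((qv v : ℕ) : ℝ) ^ (-D v) := by
  classical
  obtain ⟨_, _, F₁, hF₁, _, _, hr⟩ := id h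
  obtain ⟨F₂, hF₂, hb₂, -⟩ := h.exists_level hC hμ
  let F := F₂ ⊔ F₁
  have hF : F.IsUnramifiedOutside S := hF₂.sup hF₁
  have hNU : F.fixingSubgroup ≤ U := fun s hs =>
    (hr s (IntermediateField.fixingSubgroup_antitone le_sup_right hs)).1
  have hb : (β : AlgebraicClosure ℚ) ^ p ∈ F := (le_sup_left : F₂ ≤ F) hb₂
  haveI : FiniteDimensional ℚ F := hF.1
  haveI : NumberField F := NumberField.of_module_finite ℚ F
  let b : Fˣ := Units.mk0 ⟨_, hb⟩ fun h0 => pow_ne_zero p β.ne_zero (congrArg Subtype.val h0)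
  let w : OffPrimes (placesOver S (IntermediateField.fixedField U)) → HeightOneSpectrum (𝓞 F) :=
    fun v => primeAt F (qv v) (gv v)
  have hw : Function.Injective w := fun v v' hvv => by
    have hfix : (IntermediateField.fixedField F.fixingSubgroup).fixingSubgroup = F.fixingSubgroup := by
      rw [InfiniteGalois.fixedField_fixingSubgroup]
    have hF' : IntermediateField.fixedField F.fixingSubgroup = F :=
      InfiniteGalois.fixedField_fixingSubgroup F
    have key : ∀ (L : IntermediateField ℚ (AlgebraicClosure ℚ)), L = F →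
        primeAt L (qv v) (gv v) = primeAt L (qv v') (gv v') := by
      rintro L rfl; exact hvv
    obtain ⟨hq', τ, u, hu, hg'⟩ := (primeAt_eq_iff hfix).1 (key _ hF')
    apply Subtype.ext
    rw [← hgv v, ← hgv v']
    exact (primeAt_eq_iff (fixingSubgroup_fixedField_of_level hU.to_all)).2
      ⟨hq', τ, u, hNU hu, hg'⟩
  refine ⟨Finsupp.ofSupportFinite (fun v => ordP (w v) b) ?_, fun v => ?_⟩
  · refine ((ordP_finite_support (∅ : Finset (HeightOneSpectrum (𝓞 F))) b).preimage
      (f := fun v => (⟨w v, Finset.notMem_empty _⟩ : OffPrimes ∅)) ?_)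
    intro v _ v' _ e
    exact hw (congrArg Subtype.val e)
  · rw [← galNorm_pow]
    exact galNorm_eq_zpow_ordP (fun A hA s hs => hF.2 _ (hqv v) A hA hs) (gv v) b

theorem eq_zero_of_classData (hpS : pPrime p ∈ S)
    (hU : IsLevelSubgroup (Levels.unr S) (MonoidHom.id GQ) U)
    (hμ : ∀ g ∈ U, cycloChar p g = 1)
    (C : ↥(Z2 (Levels.unr S) (MonoidHom.id GQ) (funRep (muRep p) U))) {μ : U → ZMod p}
    {β : (AlgebraicClosure ℚ)ˣ} (h : ClassData S C.1 μ β)
    (z : (IntermediateField.fixedField U)ˣ)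
    (hz : ∀ q ∉ S, ∀ g : GQ, ∃ k : ℤ, galNorm q g β ^ p =
      galNorm q g ((z : IntermediateField.fixedField U) : AlgebraicClosure ℚ) *
        ((q : ℕ) : ℝ) ^ ((p : ℤ) * k)) :
    H2cπ (Levels.unr S) (MonoidHom.id GQ) (funRep (muRep p) U) C = 0 := by
  obtain ⟨γ, hγ⟩ := exists_pow_root (p := p) z
  obtain ⟨hμc, hd, F, hF, hN, hcst, hr⟩ := h
  let β' := β / γ
  let μ' : U → ZMod p := fun s => μ s - kummerFun γ (s : GQ)
  have hfixγ : ∀ s : U, (s : GQ) ((γ : AlgebraicClosure ℚ) ^ p) = (γ : AlgebraicClosure ℚ) ^ p :=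
    fun s => by rw [hγ]; exact apply_unitsIncl s.2 z
  have hkum : ∀ s : U, galUnits (s : GQ) γ = muInc p (kummerFun γ (s : GQ)) * γ := fun s =>
    Units.ext (by rw [coe_galUnits, Units.val_mul, muInc_kummerFun (hfixγ s)])
  have hd' : ∀ s t : U, C.1 ((s : GQ), (t : GQ)) (QuotientGroup.mk 1)
      = μ' t - μ' (s * t) + μ' s := fun s t => by
    simp only [μ', hd s t, Subgroup.coe_mul, kummerFun_mul (hμ s s.2) (hfixγ s) (hfixγ t)]
    abel
  have hr' : ∀ s ∈ F.fixingSubgroup, ∃ hs : s ∈ U,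
      galUnits s β' = muInc p (μ' ⟨s, hs⟩ - baseVal C.1) * β' := fun s hs => by
    obtain ⟨hsU, e⟩ := hr s hs
    refine ⟨hsU, ?_⟩
    have hb : μ' ⟨s, hsU⟩ - baseVal C.1 =
        (μ ⟨s, hsU⟩ - baseVal C.1) - kummerFun γ s := by
      simp only [μ']; abel
    rw [map_div, e, hkum ⟨s, hsU⟩, hb, mul_div_mul_comm, ← muInc_sub]
  let F' := F ⊔ IntermediateField.adjoin ℚ {(β' : AlgebraicClosure ℚ)}
  haveI := hF.1
  haveI : FiniteDimensional ℚ (IntermediateField.adjoin ℚ {(β' : AlgebraicClosure ℚ)}) :=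
    IntermediateField.adjoin.finiteDimensional
      ((AlgebraicClosure.isAlgebraic ℚ).isAlgebraic _).isIntegral
  have hF' : F'.IsUnramifiedOutside S := by
    refine ⟨IntermediateField.finiteDimensional_sup _ _, fun q hq A hA s hs => ?_⟩
    rw [IntermediateField.fixingSubgroup_sup]
    refine ⟨hF.2 q hq A hA hs, mem_fixingSubgroup_adjoin_singleton ?_⟩
    obtain ⟨hsU, e⟩ := hr' s (hF.2 q hq A hA hs)
    choose k hk using hz q hq
    have hnorm : ∀ g, galNorm q g β' = ((q : ℕ) : ℝ) ^ k g := fun g => by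
      refine (pow_left_inj₀ (galNorm_pos q g β'.ne_zero).le
        (zpow_nonneg (Nat.cast_nonneg _) _) (Fact.out : p.Prime).ne_zero).1 ?_
      rw [show (β' : AlgebraicClosure ℚ) = β * (γ : AlgebraicClosure ℚ)⁻¹ by
          rw [Units.val_div_eq_div_val, div_eq_mul_inv],
        galNorm_mul, galNorm_inv, mul_pow, hk g, inv_pow, ← galNorm_pow q g (γ : AlgebraicClosure ℚ),
        hγ, mul_right_comm, mul_inv_cancel₀, one_mul, ← zpow_natCast, ← zpow_mul, mul_comm]
      exact (galNorm_pos q g (fun h0 => z.ne_zero (Subtype.ext h0))).ne'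
    have hi := inertia_fix_of_galNorm hpS hq hA hnorm hs e
    rw [hi, muInc_zero, one_mul] at e
    exact congrArg Units.val e
  obtain ⟨FU, hFU, hUF⟩ := id hU
  have hconst : IsConst₁ (Levels.unr S) U.subtype μ' := by
    refine ⟨F', hF', fun g s hs => ?_⟩
    rw [IntermediateField.fixingSubgroup_sup] at hs
    obtain ⟨hsU, e⟩ := hr' (s : GQ) hs.1
    have hβfix : galUnits (s : GQ) β' = β' := Units.ext
      ((IntermediateField.mem_fixingSubgroup_iff _ _).1 hs.2 _
        (IntermediateField.mem_adjoin_simple_self ℚ _))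
    rw [hβfix, eq_comm, mul_eq_right, ← muInc_zero (p := p)] at e
    have hs0 : μ' s = baseVal C.1 := sub_eq_zero.1 (muInc_injective e)
    have h1 := hd' g s
    have h2 : C.1 ((g : GQ), (s : GQ)) (QuotientGroup.mk 1) = baseVal C.1 := by
      have := hcst (g : GQ) 1 1 (s : GQ) (one_mem _) hs.1
      rw [mul_one, one_mul] at this
      rw [this, cocycle_right_one C.2.1 hμ g.2]
    rw [h2, hs0] at h1
    linear_combination h1
  refine (injective_iff_map_eq_zero _).1
    (shapiro₂_bijective (Levels.hasNormal_unr S) hU (isSmoothRep_muRep_of_unr hpS)).1 _ ?_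
  refine (Submodule.Quotient.mk_eq_zero _).2 ⟨μ', hconst, funext fun ⟨s, t⟩ => ?_⟩
  rw [d₁₂_hom_apply]
  show (muRep p).ρ (s : GQ) (μ' t) - μ' (s * t) + μ' s =
    C.1 ((s : GQ), (t : GQ)) (QuotientGroup.mk 1)
  rw [muRep_apply, hμ s s.2, Units.val_one, one_mul, hd' s t]

/-- Locally trivial classes of the permutation module inject into the class group modulo `p`. -/
theorem finite_sha_funRep (hp2 : p ≠ 2) (hpS : pPrime p ∈ S)
    (hU : IsLevelSubgroup (Levels.unr S) (MonoidHom.id GQ) U)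
    (hμ : ∀ g ∈ U, cycloChar p g = 1) [NumberField (IntermediateField.fixedField U)] :
    Finite {x : H2c (Levels.unr S) (MonoidHom.id GQ) (funRep (muRep p) U) //
        ∀ q ∈ S, locS q (funRep (muRep p) U) x = 0} ∧
      Nat.card {x : H2c (Levels.unr S) (MonoidHom.id GQ) (funRep (muRep p) U) //
        ∀ q ∈ S, locS q (funRep (muRep p) U) x = 0} ≤
      Nat.card (SClass (placesOver S (IntermediateField.fixedField U)) ⧸
        (nsmulAddMonoidHom p : SClass (placesOver S (IntermediateField.fixedField U)) →+ _).range) := by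
  classical
  set L := IntermediateField.fixedField U
  set T := placesOver S L
  haveI := finiteDimensional_fixedField hU.to_all
  have hfixU := fixingSubgroup_fixedField_of_level hU.to_all
  choose qv gv hgv using fun v : OffPrimes T => exists_primeAt_eq L v.1
  have hqv : ∀ v, qv v ∉ S := fun v hq => v.2 (mem_placesOver.2 ⟨qv v, hq, by
    rw [← hgv v]; exact natCast_mem_primeUnder L _ _⟩)
  choose rep hrep using fun x : {x : H2c (Levels.unr S) (MonoidHom.id GQ) (funRep (muRep p) U) //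
        ∀ q ∈ S, locS q (funRep (muRep p) U) x = 0} => Submodule.mkQ_surjective _ x.1
  choose μ β hdata using fun x => exists_classData hp2 hU hμ (rep x)
    (fun q hq => by rw [hrep x]; exact x.2 q hq)
  choose D hD using fun x => (hdata x).exists_divisor (rep x).2.1 hμ hU qv gv hqv hgv
  have hinj : Function.Injective fun x =>
      (QuotientAddGroup.mk (QuotientAddGroup.mk (D x)) :
        SClass T ⧸ (nsmulAddMonoidHom p : SClass T →+ SClass T).range) := by
    intro x y hxy
    obtain ⟨w, hw⟩ := QuotientAddGroup.eq.1 hxy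
    change p • w = _ at hw
    have h0 : (QuotientAddGroup.mk (p • w.out - (-D x + D y)) : SClass T) = 0 := by
      rw [QuotientAddGroup.mk_sub, QuotientAddGroup.mk_nsmul, QuotientAddGroup.out_eq', hw,
        QuotientAddGroup.mk_add, QuotientAddGroup.mk_neg, sub_self]
    obtain ⟨z, hzd⟩ := (QuotientAddGroup.eq_zero_iff _).1 h0
    apply Subtype.ext
    rw [← hrep x, ← hrep y, ← sub_eq_zero, ← map_sub]
    refine eq_zero_of_classData hpS hU hμ (rep x - rep y) ((hdata x).sub (hdata y)) z.toMul ?_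
    intro q hq g
    let v : OffPrimes T := ⟨primeAt L q g, primeAt_not_mem_placesOver hq g⟩
    obtain ⟨hqq, τ, u, hu, hg⟩ := (primeAt_eq_iff hfixU).1 (hgv v)
    clear_value v
    subst hqq
    subst hg
    obtain ⟨j, hj⟩ := ((hdata x).sub (hdata y)).exists_exponent (rep x - rep y).2.1 hμ (hqv v)
      (gv v) hu
    refine ⟨j + w.out v, ?_⟩
    have hzv := DFunLike.congr_fun hzd v
    simp only [divOff_apply, Finsupp.sub_apply, Finsupp.add_apply, Finsupp.neg_apply,
      Finsupp.smul_apply, nsmul_eq_mul] at hzv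
    have hLI : Fermat.Agent.Galois.InertiaLE (qv v : ℕ) L.fixingSubgroup := by
      rw [hfixU]; exact hU.inertiaLE (hqv v)
    rw [galNorm_mul_of_mem _ _ hu (z.toMul : L).2, galNorm_eq_of_local, galNorm_eq_zpow_ordP hLI,
      hgv v, show galNorm (qv v) (primeLocalToGlobal (qv v) τ * gv v * u)
          ((β x / β y : (AlgebraicClosure ℚ)ˣ) : AlgebraicClosure ℚ) = galNorm (qv v) (gv v)
          (u ((β x / β y : (AlgebraicClosure ℚ)ˣ) : AlgebraicClosure ℚ)) by
        rw [mul_assoc, galNorm_eq_of_local]; rfl,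
      hj, mul_pow, Units.val_div_eq_div_val, div_eq_mul_inv, galNorm_mul, galNorm_inv, mul_pow,
      inv_pow, hD, hD, ← zpow_natCast, ← zpow_mul, ← zpow_neg,
      ← zpow_add₀ (Nat.cast_ne_zero.2 (qv v).2.ne_zero),
      ← zpow_add₀ (Nat.cast_ne_zero.2 (qv v).2.ne_zero),
      ← zpow_add₀ (Nat.cast_ne_zero.2 (qv v).2.ne_zero)]
    congr 1
    linear_combination hzv
  exact ⟨Finite.of_injective _ hinj, Nat.card_le_card_of_injective _ hinj⟩

end Fermat.Agent.CFT
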